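import Mathlib

/-!
# S52 (P) — top seam of (HIT), Klein-free core

`exists_m_of_seam`: from the real approximation brick (HIT-1) and the van der Waerden /
line brick (HIT-2 + HIT-4, packaged as "no sequence of integer roots along an arithmetic
progression stays near a finite set of polynomials"), there is an `m ≡ 1 [ZMOD n]` without
integer root.
-/

namespace Fermat.Agent.S52P.HIT.Asm35

open Polynomial

/-- Klein-free top seam of (HIT). `root m z` stands for "`z` is an integer root of the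
quartic `G_m`". -/
theorem exists_m_of_seam (root : ℤ → ℤ → Prop) (n : ℤ) (hn : n ≠ 0)
    (hReal : ∃ (M₀ : ℤ) (S : Finset ℝ[X]), (∀ P ∈ S, P.natDegree ≤ 10) ∧
      ∀ m : ℤ, M₀ ≤ m → ∀ z : ℤ, root m z →
        ∃ P ∈ S, |(z : ℝ) - P.eval (m : ℝ)| < 1 / 4096)
    (hVdw : ∀ (S : Finset ℝ[X]), (∀ P ∈ S, P.natDegree ≤ 10) → ∀ (m₀ d : ℤ), d ≠ 0 →
      ∀ z : ℕ → ℤ, (∀ i : ℕ, root (m₀ + d * i) (z i)) →
        (∀ i : ℕ, ∃ P ∈ S, |(z i : ℝ) - P.eval ((m₀ + d * i : ℤ) : ℝ)| < 1 / 4096) → False) :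
    ∃ m : ℤ, m ≡ 1 [ZMOD n] ∧ ∀ z : ℤ, ¬ root m z := by
  by_contra hcon
  push Not at hcon
  obtain ⟨M₀, S, hS, hnear⟩ := hReal
  have hmod : ∀ i : ℕ, (1 + |n| * |M₀|) + |n| * (i : ℤ) ≡ 1 [ZMOD n] := by
    intro i
    have h1 : n ∣ |n| * |M₀| + |n| * (i : ℤ) :=
      Dvd.dvd.add (Dvd.dvd.mul_right ((dvd_abs n n).mpr dvd_rfl) _)
        (Dvd.dvd.mul_right ((dvd_abs n n).mpr dvd_rfl) _)
    have h2 : (1 + |n| * |M₀|) + |n| * (i : ℤ) = 1 + (|n| * |M₀| + |n| * (i : ℤ)) := by ring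
    rw [h2]
    exact (Int.modEq_iff_dvd.mpr (by simpa using h1)).symm
  have hge : ∀ i : ℕ, M₀ ≤ (1 + |n| * |M₀|) + |n| * (i : ℤ) := by
    intro i
    have h1 : (1 : ℤ) ≤ |n| := Int.one_le_abs hn
    have h2 : M₀ ≤ |M₀| := le_abs_self M₀
    have h3 : (0 : ℤ) ≤ |M₀| := abs_nonneg M₀
    have h4 : (0 : ℤ) ≤ (i : ℤ) := Int.natCast_nonneg i
    nlinarith [mul_nonneg (abs_nonneg n) h4]
  choose z hz using fun i : ℕ => hcon _ (hmod i)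
  exact hVdw S hS (1 + |n| * |M₀|) |n| (abs_ne_zero.mpr hn) z hz
    (fun i => hnear _ (hge i) _ (hz i))

/-- Middle layer of the (HIT) seam, still Klein-free: the family enters through two
polynomials `Hm Tm : ℚ[X]` in the variable `m` with integer values `fH m`, `fT m` at integers.
`hVdw` is the literal conclusion of the HIT-2 brick (`exists_poly_root_on_line`), `hLine` the
literal conclusion of the HIT-4 brick (`no_interpolant`), `hReal` the HIT-1 brick. -/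
theorem exists_m_of_line (Hm Tm : ℚ[X]) (fH fT : ℤ → ℤ)
    (hHe : ∀ m : ℤ, Hm.eval (m : ℚ) = (fH m : ℚ)) (hTe : ∀ m : ℤ, Tm.eval (m : ℚ) = (fT m : ℚ))
    (n : ℤ) (hn : n ≠ 0)
    (hReal : ∃ (M₀ : ℤ) (S : Finset ℝ[X]), (∀ P ∈ S, P.natDegree ≤ 10) ∧
      ∀ m : ℤ, M₀ ≤ m → ∀ z : ℤ, z ^ 4 - 6 * fH m * z ^ 2 - 8 * fT m * z - 3 * fH m ^ 2 = 0 →
        ∃ P ∈ S, |(z : ℝ) - P.eval (m : ℝ)| < 1 / 4096)
    (hVdw : ∀ (S : Finset ℝ[X]), (∀ P ∈ S, P.natDegree ≤ 10) → ∀ (m₀ d : ℤ), d ≠ 0 →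
      ∀ z : ℕ → ℤ,
      (∀ i : ℕ, (z i : ℚ) ^ 4 - 6 * Hm.eval ((m₀ + d * i : ℤ) : ℚ) * (z i : ℚ) ^ 2
        - 8 * Tm.eval ((m₀ + d * i : ℤ) : ℚ) * (z i : ℚ)
        - 3 * Hm.eval ((m₀ + d * i : ℤ) : ℚ) ^ 2 = 0) →
      (∀ i : ℕ, ∃ P ∈ S, |(z i : ℝ) - P.eval ((m₀ + d * i : ℤ) : ℝ)| < 1 / 4096) →
      ∃ (μ₀ μ₁ : ℤ) (I : ℚ[X]), μ₁ ≠ 0 ∧
        I ^ 4 - 6 * Hm.comp (C (μ₀ : ℚ) + C (μ₁ : ℚ) * X) * I ^ 2
          - 8 * Tm.comp (C (μ₀ : ℚ) + C (μ₁ : ℚ) * X) * I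
          - 3 * Hm.comp (C (μ₀ : ℚ) + C (μ₁ : ℚ) * X) ^ 2 = 0)
    (hLine : ∀ (μ₀ μ₁ : ℤ), μ₁ ≠ 0 → ∀ I : ℚ[X],
        I ^ 4 - 6 * Hm.comp (C (μ₀ : ℚ) + C (μ₁ : ℚ) * X) * I ^ 2
          - 8 * Tm.comp (C (μ₀ : ℚ) + C (μ₁ : ℚ) * X) * I
          - 3 * Hm.comp (C (μ₀ : ℚ) + C (μ₁ : ℚ) * X) ^ 2 ≠ 0) :
    ∃ m : ℤ, m ≡ 1 [ZMOD n] ∧
      ∀ z : ℤ, z ^ 4 - 6 * fH m * z ^ 2 - 8 * fT m * z - 3 * fH m ^ 2 ≠ 0 := by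
  refine exists_m_of_seam
    (fun m z => z ^ 4 - 6 * fH m * z ^ 2 - 8 * fT m * z - 3 * fH m ^ 2 = 0) n hn hReal ?_
  intro S hS m₀ d hd z hz hnear
  have hroot : ∀ i : ℕ, (z i : ℚ) ^ 4 - 6 * Hm.eval ((m₀ + d * i : ℤ) : ℚ) * (z i : ℚ) ^ 2
        - 8 * Tm.eval ((m₀ + d * i : ℤ) : ℚ) * (z i : ℚ)
        - 3 * Hm.eval ((m₀ + d * i : ℤ) : ℚ) ^ 2 = 0 := by
    intro i
    rw [hHe, hTe]
    have h := hz i
    have h' := congrArg (Int.cast : ℤ → ℚ) h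
    push_cast at h' ⊢
    exact h'
  obtain ⟨μ₀, μ₁, I, hμ, hI⟩ := hVdw S hS m₀ d hd z hroot hnear
  exact hLine μ₀ μ₁ hμ I hI

end Fermat.Agent.S52P.HIT.Asm35
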