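import Mathlib

set_option autoImplicit false
set_option linter.unusedSectionVars false

open Polynomial

noncomputable section

namespace Fermat.Agent.S52P.HIT.Line51

/-! ### Local copy of the Klein data (to be replaced by `S52P/Klein/Defs`) -/

section Defs

variable {R : Type*} [CommRing R]

def eta (X Y : R) : R := X ^ 4 - 228 * X ^ 3 * Y + 494 * X ^ 2 * Y ^ 2 + 228 * X * Y ^ 3 + Y ^ 4

def theta (X Y : R) : R :=
  X ^ 6 + 522 * X ^ 5 * Y - 10005 * X ^ 4 * Y ^ 2 - 10005 * X ^ 2 * Y ^ 4 - 522 * X * Y ^ 5 + Y ^ 6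

def phi (X Y : R) : R := X ^ 2 + 11 * X * Y - Y ^ 2

def kA (X Y : R) : R := X ^ 2 + 66 * X * Y - 11 * Y ^ 2

def kB (X Y : R) : R := 11 * X ^ 2 + 66 * X * Y - Y ^ 2

def quart3 (c₄ c₆ z : R) : R := z ^ 4 - 6 * c₄ * z ^ 2 - 8 * c₆ * z - 3 * c₄ ^ 2

theorem syzygy (X Y : R) :
    eta X Y ^ 3 - theta X Y ^ 2 = -1728 * (X * Y * phi X Y ^ 5) := by
  unfold eta theta phi
  ring

theorem kA_add_kB (X Y : R) : kA X Y + kB X Y = 12 * phi X Y := by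
  unfold kA kB phi
  ring

theorem bez_phi_eta_X (X Y : R) :
    (3003 * X ^ 3 - 5206 * X ^ 2 * Y - 2507 * X * Y ^ 2 - 11 * Y ^ 3) * phi X Y
      + (122 * X - 11 * Y) * eta X Y = 3125 * X ^ 5 := by
  unfold phi eta
  ring

theorem bez_phi_eta_Y (X Y : R) :
    (-11 * X ^ 3 + 2507 * X ^ 2 * Y - 5206 * X * Y ^ 2 - 3003 * Y ^ 3) * phi X Y
      + (11 * X + 122 * Y) * eta X Y = 3125 * Y ^ 5 := by
  unfold phi eta
  ring

theorem bez_kA_kB_X (X Y : R) :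
    (-728 * X + 11 * Y) * kA X Y + (748 * X - 121 * Y) * kB X Y = 7500 * X ^ 3 := by
  unfold kA kB
  ring

theorem bez_kA_kB_Y (X Y : R) :
    (-121 * X - 748 * Y) * kA X Y + (11 * X + 728 * Y) * kB X Y = 7500 * Y ^ 3 := by
  unfold kA kB
  ring

theorem quart3_resolvent (c₄ c₆ z : R) :
    64 * z ^ 2 * (c₄ ^ 3 - c₆ ^ 2)
      = (z ^ 2 - c₄) ^ 3 * (9 * c₄ - z ^ 2) + quart3 c₄ c₆ z * quart3 c₄ c₆ (-z) := by
  unfold quart3
  ring

end Defs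

/-! ### Pointwise consequences of the Bezout identities -/

section Pointwise

variable {k : Type*} [Field k] [CharZero k]

/-- `phi` and `eta` have no common zero except the origin. -/
theorem eq_zero_of_phi_eta {X Y : k} (h1 : phi X Y = 0) (h2 : eta X Y = 0) : X = 0 ∧ Y = 0 := by
  have hX := bez_phi_eta_X X Y
  have hY := bez_phi_eta_Y X Y
  rw [h1, h2, mul_zero, mul_zero, add_zero] at hX hY
  have h5 : (3125 : k) ≠ 0 := by norm_num
  exact ⟨pow_eq_zero_iff (n := 5) (by norm_num) |>.1 ((mul_eq_zero.1 hX.symm).resolve_left h5),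
    pow_eq_zero_iff (n := 5) (by norm_num) |>.1 ((mul_eq_zero.1 hY.symm).resolve_left h5)⟩

/-- `kA` and `kB` have no common zero except the origin. -/
theorem eq_zero_of_kA_kB {X Y : k} (h1 : kA X Y = 0) (h2 : kB X Y = 0) : X = 0 ∧ Y = 0 := by
  have hX := bez_kA_kB_X X Y
  have hY := bez_kA_kB_Y X Y
  rw [h1, h2, mul_zero, mul_zero, add_zero] at hX hY
  have h5 : (7500 : k) ≠ 0 := by norm_num
  exact ⟨pow_eq_zero_iff (n := 3) (by norm_num) |>.1 ((mul_eq_zero.1 hX.symm).resolve_left h5),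
    pow_eq_zero_iff (n := 3) (by norm_num) |>.1 ((mul_eq_zero.1 hY.symm).resolve_left h5)⟩

/-- The form `f = x y phi(x⁵, y⁵)` and `eta(x⁵, y⁵)` have no common zero except the origin. -/
theorem eq_zero_of_f_eta {v₁ v₂ : k} (h1 : v₁ * v₂ * phi (v₁ ^ 5) (v₂ ^ 5) = 0)
    (h2 : eta (v₁ ^ 5) (v₂ ^ 5) = 0) : v₁ = 0 ∧ v₂ = 0 := by
  rcases mul_eq_zero.1 h1 with h | h
  · rcases mul_eq_zero.1 h with h | h
    · subst h
      have : v₂ ^ 20 = 0 := by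
        have e : eta ((0 : k) ^ 5) (v₂ ^ 5) = v₂ ^ 20 := by unfold eta; ring
        rw [← e]; exact h2
      exact ⟨rfl, pow_eq_zero_iff (n := 20) (by norm_num) |>.1 this⟩
    · subst h
      have : v₁ ^ 20 = 0 := by
        have e : eta (v₁ ^ 5) ((0 : k) ^ 5) = v₁ ^ 20 := by unfold eta; ring
        rw [← e]; exact h2
      exact ⟨pow_eq_zero_iff (n := 20) (by norm_num) |>.1 this, rfl⟩
  · obtain ⟨h3, h4⟩ := eq_zero_of_phi_eta h h2
    exact ⟨pow_eq_zero_iff (n := 5) (by norm_num) |>.1 h3,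
      pow_eq_zero_iff (n := 5) (by norm_num) |>.1 h4⟩

/-- The gradient of `f = x y phi(x⁵, y⁵)` (`f_x = y kB`, `f_y = x kA`) vanishes only at the
origin. -/
theorem eq_zero_of_grad {v₁ v₂ : k} (h1 : v₂ * kB (v₁ ^ 5) (v₂ ^ 5) = 0)
    (h2 : v₁ * kA (v₁ ^ 5) (v₂ ^ 5) = 0) : v₁ = 0 ∧ v₂ = 0 := by
  by_cases hv1 : v₁ = 0
  · subst hv1
    refine ⟨rfl, ?_⟩
    by_contra hv2
    have h3 := (mul_eq_zero.1 h1).resolve_left hv2
    have e : kB ((0 : k) ^ 5) (v₂ ^ 5) = -v₂ ^ 10 := by unfold kB; ring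
    rw [e, neg_eq_zero] at h3
    exact hv2 (pow_eq_zero_iff (n := 10) (by norm_num) |>.1 h3)
  · by_cases hv2 : v₂ = 0
    · subst hv2
      exfalso
      have h3 := (mul_eq_zero.1 h2).resolve_left hv1
      have e : kA (v₁ ^ 5) ((0 : k) ^ 5) = v₁ ^ 10 := by unfold kA; ring
      rw [e] at h3
      exact hv1 (pow_eq_zero_iff (n := 10) (by norm_num) |>.1 h3)
    · exfalso
      have h3 := (mul_eq_zero.1 h1).resolve_left hv2
      have h4 := (mul_eq_zero.1 h2).resolve_left hv1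
      obtain ⟨h5, -⟩ := eq_zero_of_kA_kB h4 h3
      exact hv1 (pow_eq_zero_iff (n := 5) (by norm_num) |>.1 h5)

end Pointwise

/-! ### The forms along a line -/

section Line

variable {k : Type*} [Field k] [CharZero k]

/-- The first coordinate of the line `p + X d`. -/
def xs (p₁ d₁ : k) : k[X] := C p₁ + C d₁ * X

/-- `eta` along the line. -/
def Hl (p₁ p₂ d₁ d₂ : k) : k[X] := eta (xs p₁ d₁ ^ 5) (xs p₂ d₂ ^ 5)

/-- `theta` along the line. -/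
def Tl (p₁ p₂ d₁ d₂ : k) : k[X] := theta (xs p₁ d₁ ^ 5) (xs p₂ d₂ ^ 5)

/-- `f = x y phi(x⁵, y⁵)` along the line. -/
def Fl (p₁ p₂ d₁ d₂ : k) : k[X] := xs p₁ d₁ * xs p₂ d₂ * phi (xs p₁ d₁ ^ 5) (xs p₂ d₂ ^ 5)

variable (p₁ p₂ d₁ d₂ : k)

theorem eval_xs (a : k) : (xs p₁ d₁).eval a = p₁ + d₁ * a := by
  simp [xs]

theorem eval_Hl (a : k) :
    (Hl p₁ p₂ d₁ d₂).eval a = eta ((p₁ + d₁ * a) ^ 5) ((p₂ + d₂ * a) ^ 5) := by
  simp [Hl, eta, eval_xs]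

theorem eval_Fl (a : k) :
    (Fl p₁ p₂ d₁ d₂).eval a
      = (p₁ + d₁ * a) * (p₂ + d₂ * a) * phi ((p₁ + d₁ * a) ^ 5) ((p₂ + d₂ * a) ^ 5) := by
  simp [Fl, phi, eval_xs]

theorem derivative_xs : derivative (xs p₁ d₁) = C d₁ := by
  simp [xs]

theorem eval_derivative_Fl (a : k) :
    (derivative (Fl p₁ p₂ d₁ d₂)).eval a
      = d₁ * ((p₂ + d₂ * a) * kB ((p₁ + d₁ * a) ^ 5) ((p₂ + d₂ * a) ^ 5))
        + d₂ * ((p₁ + d₁ * a) * kA ((p₁ + d₁ * a) ^ 5) ((p₂ + d₂ * a) ^ 5)) := by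
  simp only [Fl, phi, kA, kB, derivative_mul, derivative_add, derivative_sub, derivative_pow,
    derivative_xs, eval_add, eval_sub, eval_mul, eval_pow, eval_C, eval_xs, derivative_ofNat,
    eval_ofNat, Nat.cast_ofNat, eval_zero]
  ring

theorem syzygy_line :
    Hl p₁ p₂ d₁ d₂ ^ 3 - Tl p₁ p₂ d₁ d₂ ^ 2 = -1728 * Fl p₁ p₂ d₁ d₂ ^ 5 := by
  have h := syzygy (xs p₁ d₁ ^ 5) (xs p₂ d₂ ^ 5)
  unfold Hl Tl Fl
  rw [h]
  ring

theorem natDegree_xs_le : (xs p₁ d₁).natDegree ≤ 1 := by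
  unfold xs
  compute_degree

theorem natDegree_Hl_le : (Hl p₁ p₂ d₁ d₂).natDegree ≤ 20 := by
  unfold Hl eta xs
  compute_degree

theorem natDegree_Tl_le : (Tl p₁ p₂ d₁ d₂).natDegree ≤ 30 := by
  unfold Tl theta xs
  compute_degree

theorem coeff_xs_one : (xs p₁ d₁).coeff 1 = d₁ := by
  simp [xs]

theorem natDegree_xs_pow_le (m : ℕ) : (xs p₁ d₁ ^ m).natDegree ≤ m := by
  have h := natDegree_pow_le_of_le m (natDegree_xs_le p₁ d₁)
  rwa [mul_one] at h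

theorem coeff_xs_pow (m : ℕ) : (xs p₁ d₁ ^ m).coeff m = d₁ ^ m := by
  have h := coeff_pow_of_natDegree_le (natDegree_xs_le p₁ d₁) (m := m)
  rw [mul_one, coeff_xs_one] at h
  exact h

theorem natDegree_phi_le : (phi (xs p₁ d₁ ^ 5) (xs p₂ d₂ ^ 5)).natDegree ≤ 10 := by
  unfold phi xs
  compute_degree

theorem coeff_phi_line :
    (phi (xs p₁ d₁ ^ 5) (xs p₂ d₂ ^ 5)).coeff 10 = phi (d₁ ^ 5) (d₂ ^ 5) := by
  have e : phi (xs p₁ d₁ ^ 5) (xs p₂ d₂ ^ 5)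
      = xs p₁ d₁ ^ 10 + 11 * (xs p₁ d₁ ^ 5 * xs p₂ d₂ ^ 5) - xs p₂ d₂ ^ 10 := by
    unfold phi
    ring
  have h5 : (xs p₁ d₁ ^ 5 * xs p₂ d₂ ^ 5).coeff (5 + 5) = d₁ ^ 5 * d₂ ^ 5 := by
    rw [coeff_mul_add_eq_of_natDegree_le (natDegree_xs_pow_le p₁ d₁ 5)
      (natDegree_xs_pow_le p₂ d₂ 5), coeff_xs_pow, coeff_xs_pow]
  rw [e, coeff_sub, coeff_add, coeff_ofNat_mul, coeff_xs_pow, coeff_xs_pow, h5]
  unfold phi
  ring

theorem coeff_Fl : (Fl p₁ p₂ d₁ d₂).coeff 12 = d₁ * d₂ * phi (d₁ ^ 5) (d₂ ^ 5) := by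
  have h2 : (xs p₁ d₁ * xs p₂ d₂).coeff (1 + 1) = d₁ * d₂ := by
    rw [coeff_mul_add_eq_of_natDegree_le (natDegree_xs_le p₁ d₁) (natDegree_xs_le p₂ d₂),
      coeff_xs_one, coeff_xs_one]
  have h2' : (xs p₁ d₁ * xs p₂ d₂).natDegree ≤ 2 :=
    natDegree_mul_le_of_le (natDegree_xs_le p₁ d₁) (natDegree_xs_le p₂ d₂)
  have h := coeff_mul_add_eq_of_natDegree_le h2' (natDegree_phi_le p₁ p₂ d₁ d₂)
  unfold Fl
  rw [show (12 : ℕ) = 2 + 10 from rfl, h, h2, coeff_phi_line]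

theorem natDegree_Fl_le : (Fl p₁ p₂ d₁ d₂).natDegree ≤ 12 := by
  unfold Fl
  exact natDegree_mul_le_of_le
    (natDegree_mul_le_of_le (natDegree_xs_le p₁ d₁) (natDegree_xs_le p₂ d₂))
    (natDegree_phi_le p₁ p₂ d₁ d₂)

theorem natDegree_Fl (hd : d₁ * d₂ * phi (d₁ ^ 5) (d₂ ^ 5) ≠ 0) :
    (Fl p₁ p₂ d₁ d₂).natDegree = 12 :=
  le_antisymm (natDegree_Fl_le p₁ p₂ d₁ d₂)
    (le_natDegree_of_ne_zero (by rw [coeff_Fl]; exact hd))

end Line

/-! ### No polynomial root of the 3-division quartic -/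

section Main

variable {k : Type*} [Field k] [CharZero k]

theorem rootMultiplicity_pow' (p : k[X]) (hp : p ≠ 0) (a : k) (n : ℕ) :
    (p ^ n).rootMultiplicity a = n * p.rootMultiplicity a := by
  induction n with
  | zero => simp
  | succ n ih =>
    rw [pow_succ, rootMultiplicity_mul (mul_ne_zero (pow_ne_zero n hp) hp), ih]
    ring

variable [IsAlgClosed k]

/-- **Abstract core.** If `H³ - T² = -1728 F⁵` with `F` separable of degree `12`, coprime to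
`H`, and `deg H ≤ 20`, `deg T ≤ 30`, then `z⁴ - 6 H z² - 8 T z - 3 H²` has no root `z` in
`k[X]`. -/
theorem no_root_of_syzygy (H T F z : k[X]) (hsyz : H ^ 3 - T ^ 2 = -1728 * F ^ 5)
    (hcop : IsCoprime F H) (hsep : F.Separable) (hFdeg : F.natDegree = 12)
    (hHdeg : H.natDegree ≤ 20) (hTdeg : T.natDegree ≤ 30) : quart3 H T z ≠ 0 := by
  intro hq
  have hF0 : F ≠ 0 := by
    rintro rfl
    simp at hFdeg
  have hH0 : H ≠ 0 := by
    rintro rfl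
    have hu : IsUnit F := isCoprime_zero_right.1 hcop
    have := natDegree_eq_zero_of_isUnit hu
    omega
  have hkey : -110592 * z ^ 2 * F ^ 5 = (z ^ 2 - H) ^ 3 * (9 * H - z ^ 2) := by
    have h1 := quart3_resolvent H T z
    rw [hq, zero_mul, add_zero, hsyz] at h1
    rw [← h1]
    ring
  have h9 : (9 : k[X]) ≠ 0 := by
    have : (9 : k[X]) = C 9 := (map_ofNat C 9).symm
    rw [this, Ne, C_eq_zero]
    norm_num
  have h8 : (8 : k) ≠ 0 := by norm_num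
  have hc : (-110592 : k[X]) ≠ 0 := by
    have : (-110592 : k[X]) = C (-110592) := by rw [map_neg, map_ofNat]
    rw [this, Ne, C_eq_zero]
    norm_num
  have hz0 : z ≠ 0 := by
    rintro rfl
    have h : (9 : k[X]) * H ^ 4 = 0 := by linear_combination hkey
    exact hH0 (pow_eq_zero_iff (n := 4) (by norm_num) |>.1 ((mul_eq_zero.1 h).resolve_left h9))
  -- the degree of `z`
  have hzdeg : z.natDegree ≤ 10 := by
    by_contra hlt
    push Not at hlt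
    have h4 : (z ^ 4).natDegree = 4 * z.natDegree := natDegree_pow z 4
    have hq' : z ^ 4 = 6 * H * z ^ 2 + 8 * T * z + 3 * H ^ 2 := by
      unfold quart3 at hq
      linear_combination hq
    have hz2 : (z ^ 2).natDegree ≤ 2 * z.natDegree := natDegree_pow_le
    have hH2 : (H ^ 2).natDegree ≤ 2 * H.natDegree := natDegree_pow_le
    have hb : (6 * H * z ^ 2 + 8 * T * z + 3 * H ^ 2).natDegree ≤ 4 * z.natDegree - 1 := by
      refine natDegree_add_le_of_degree_le (natDegree_add_le_of_degree_le ?_ ?_) ?_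
      · have h6 : (6 * H * z ^ 2).natDegree ≤ (0 + H.natDegree) + 2 * z.natDegree :=
          natDegree_mul_le_of_le (natDegree_mul_le_of_le (natDegree_ofNat 6).le le_rfl) hz2
        omega
      · have h8' : (8 * T * z).natDegree ≤ (0 + T.natDegree) + z.natDegree :=
          natDegree_mul_le_of_le (natDegree_mul_le_of_le (natDegree_ofNat 8).le le_rfl) le_rfl
        omega
      · have h3 : (3 * H ^ 2).natDegree ≤ 0 + 2 * H.natDegree :=
          natDegree_mul_le_of_le (natDegree_ofNat 3).le hH2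
        omega
    rw [← hq', h4] at hb
    omega
  have hB0 : 9 * H - z ^ 2 ≠ 0 := by
    intro h0
    rw [h0, mul_zero] at hkey
    rcases mul_eq_zero.1 hkey with h | h
    · rcases mul_eq_zero.1 h with h | h
      · exact hc h
      · exact hz0 (pow_eq_zero_iff (n := 2) (by norm_num) |>.1 h)
    · exact hF0 (pow_eq_zero_iff (n := 5) (by norm_num) |>.1 h)
  -- `F` is coprime to `z² - H`
  have hcopA : IsCoprime F (z ^ 2 - H) := by
    rw [isCoprime_iff_aeval_ne_zero_of_isAlgClosed k k F (z ^ 2 - H)]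
    intro a
    simp only [coe_aeval_eq_eval]
    by_contra hcon
    push Not at hcon
    obtain ⟨hFa, hAa⟩ := hcon
    have hHa : H.eval a ≠ 0 := by
      have h := (isCoprime_iff_aeval_ne_zero_of_isAlgClosed k k F H).1 hcop a
      simp only [coe_aeval_eq_eval] at h
      exact h.resolve_left (not_not.2 hFa)
    have hza2 : z.eval a ^ 2 = H.eval a := by
      simp only [eval_sub, eval_pow] at hAa
      exact sub_eq_zero.1 hAa
    have hza : z.eval a ≠ 0 := by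
      intro h
      rw [h] at hza2
      exact hHa (by rw [← hza2]; ring)
    have hBa : (9 * H - z ^ 2).eval a ≠ 0 := by
      simp only [eval_sub, eval_mul, eval_pow, eval_ofNat]
      rw [hza2]
      intro h
      have h' : (8 : k) * H.eval a = 0 := by linear_combination h
      exact hHa ((mul_eq_zero.1 h').resolve_left h8)
    have hA0 : z ^ 2 - H ≠ 0 := by
      intro h0
      rw [h0, zero_pow (by norm_num), zero_mul] at hkey
      rcases mul_eq_zero.1 hkey with h | h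
      · rcases mul_eq_zero.1 h with h | h
        · exact hc h
        · exact hz0 (pow_eq_zero_iff (n := 2) (by norm_num) |>.1 h)
      · exact hF0 (pow_eq_zero_iff (n := 5) (by norm_num) |>.1 h)
    have hmF : F.rootMultiplicity a = 1 :=
      le_antisymm (rootMultiplicity_le_one_of_separable hsep a)
        ((rootMultiplicity_pos hF0).2 hFa)
    have hmz : z.rootMultiplicity a = 0 := rootMultiplicity_eq_zero hza
    have hmB : (9 * H - z ^ 2).rootMultiplicity a = 0 := rootMultiplicity_eq_zero hBa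
    have hL := congrArg (rootMultiplicity a) hkey
    have hne1 : -110592 * z ^ 2 * F ^ 5 ≠ 0 :=
      mul_ne_zero (mul_ne_zero hc (pow_ne_zero 2 hz0)) (pow_ne_zero 5 hF0)
    have hne2 : (z ^ 2 - H) ^ 3 * (9 * H - z ^ 2) ≠ 0 := mul_ne_zero (pow_ne_zero 3 hA0) hB0
    have hcm : (-110592 : k[X]).rootMultiplicity a = 0 := by
      have : (-110592 : k[X]) = C (-110592) := by rw [map_neg, map_ofNat]
      rw [this, rootMultiplicity_C]
    rw [rootMultiplicity_mul hne1, rootMultiplicity_mul (mul_ne_zero hc (pow_ne_zero 2 hz0)),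
      rootMultiplicity_pow' z hz0, rootMultiplicity_pow' F hF0, rootMultiplicity_mul hne2,
      rootMultiplicity_pow' _ hA0, hmF, hmz, hmB, hcm] at hL
    omega
  -- hence `F⁵ ∣ 9 H - z²`, of too small a degree
  have hdvd : F ^ 5 ∣ (z ^ 2 - H) ^ 3 * (9 * H - z ^ 2) := ⟨-110592 * z ^ 2, by rw [← hkey]; ring⟩
  have hdvd' : F ^ 5 ∣ 9 * H - z ^ 2 :=
    (IsCoprime.pow (m := 5) (n := 3) hcopA).dvd_of_dvd_mul_left hdvd
  have hle := natDegree_le_of_dvd hdvd' hB0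
  have hF5 : (F ^ 5).natDegree = 5 * F.natDegree := natDegree_pow F 5
  have hBdeg : (9 * H - z ^ 2).natDegree ≤ 20 := by
    have h9H : (9 * H).natDegree ≤ 0 + H.natDegree :=
      natDegree_mul_le_of_le (natDegree_ofNat 9).le le_rfl
    have hz2 : (z ^ 2).natDegree ≤ 2 * z.natDegree := natDegree_pow_le
    have := natDegree_sub_le (9 * H) (z ^ 2)
    omega
  omega

variable (p₁ p₂ d₁ d₂ : k)

theorem not_root_Fl_Hl (hdet : p₁ * d₂ - p₂ * d₁ ≠ 0) (a : k) :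
    (Fl p₁ p₂ d₁ d₂).eval a ≠ 0 ∨ (Hl p₁ p₂ d₁ d₂).eval a ≠ 0 := by
  by_contra hcon
  push Not at hcon
  obtain ⟨h1, h2⟩ := hcon
  rw [eval_Fl] at h1
  rw [eval_Hl] at h2
  obtain ⟨hv1, hv2⟩ := eq_zero_of_f_eta h1 h2
  apply hdet
  linear_combination d₂ * hv1 - d₁ * hv2

theorem isCoprime_Fl_Hl (hdet : p₁ * d₂ - p₂ * d₁ ≠ 0) :
    IsCoprime (Fl p₁ p₂ d₁ d₂) (Hl p₁ p₂ d₁ d₂) := by
  rw [isCoprime_iff_aeval_ne_zero_of_isAlgClosed k k (Fl p₁ p₂ d₁ d₂) (Hl p₁ p₂ d₁ d₂)]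
  intro a
  simp only [coe_aeval_eq_eval]
  exact not_root_Fl_Hl p₁ p₂ d₁ d₂ hdet a

theorem separable_Fl (hdet : p₁ * d₂ - p₂ * d₁ ≠ 0) : (Fl p₁ p₂ d₁ d₂).Separable := by
  rw [separable_def, isCoprime_iff_aeval_ne_zero_of_isAlgClosed k k (Fl p₁ p₂ d₁ d₂)
    (derivative (Fl p₁ p₂ d₁ d₂))]
  intro a
  simp only [coe_aeval_eq_eval]
  by_contra hcon
  push Not at hcon
  obtain ⟨h1, h2⟩ := hcon
  rw [eval_Fl] at h1
  rw [eval_derivative_Fl] at h2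
  have hE : (p₁ + d₁ * a) * ((p₂ + d₂ * a) * kB ((p₁ + d₁ * a) ^ 5) ((p₂ + d₂ * a) ^ 5))
      + (p₂ + d₂ * a) * ((p₁ + d₁ * a) * kA ((p₁ + d₁ * a) ^ 5) ((p₂ + d₂ * a) ^ 5)) = 0 := by
    have h := kA_add_kB ((p₁ + d₁ * a) ^ 5) ((p₂ + d₂ * a) ^ 5)
    linear_combination ((p₁ + d₁ * a) * (p₂ + d₂ * a)) * h + 12 * h1
  have hfx : (p₂ + d₂ * a) * kB ((p₁ + d₁ * a) ^ 5) ((p₂ + d₂ * a) ^ 5) = 0 := by
    have h : (p₂ + d₂ * a) * kB ((p₁ + d₁ * a) ^ 5) ((p₂ + d₂ * a) ^ 5)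
        * (p₁ * d₂ - p₂ * d₁) = 0 := by
      linear_combination d₂ * hE - (p₂ + d₂ * a) * h2
    exact (mul_eq_zero.1 h).resolve_right hdet
  have hfy : (p₁ + d₁ * a) * kA ((p₁ + d₁ * a) ^ 5) ((p₂ + d₂ * a) ^ 5) = 0 := by
    have h : (p₁ + d₁ * a) * kA ((p₁ + d₁ * a) ^ 5) ((p₂ + d₂ * a) ^ 5)
        * (p₁ * d₂ - p₂ * d₁) = 0 := by
      linear_combination (p₁ + d₁ * a) * h2 - d₁ * hE
    exact (mul_eq_zero.1 h).resolve_right hdet
  obtain ⟨hv1, hv2⟩ := eq_zero_of_grad hfx hfy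
  apply hdet
  linear_combination d₂ * hv1 - d₁ * hv2

/-- **(HIT-3).** Along a line `p + X d` with `p, d` independent and `f(d) ≠ 0`, the 3-division
quartic of the Klein family has no root in `k[X]`. -/
theorem no_root_on_line (hdet : p₁ * d₂ - p₂ * d₁ ≠ 0)
    (hd : d₁ * d₂ * phi (d₁ ^ 5) (d₂ ^ 5) ≠ 0) (z : k[X]) :
    quart3 (eta ((C p₁ + C d₁ * X) ^ 5) ((C p₂ + C d₂ * X) ^ 5))
      (theta ((C p₁ + C d₁ * X) ^ 5) ((C p₂ + C d₂ * X) ^ 5)) z ≠ 0 :=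
  no_root_of_syzygy (Hl p₁ p₂ d₁ d₂) (Tl p₁ p₂ d₁ d₂) (Fl p₁ p₂ d₁ d₂) z
    (syzygy_line p₁ p₂ d₁ d₂) (isCoprime_Fl_Hl p₁ p₂ d₁ d₂ hdet) (separable_Fl p₁ p₂ d₁ d₂ hdet)
    (natDegree_Fl p₁ p₂ d₁ d₂ hd) (natDegree_Hl_le p₁ p₂ d₁ d₂) (natDegree_Tl_le p₁ p₂ d₁ d₂)

end Main

/-! ### (HIT-4) the line of the Klein family through a base point -/

section Fam

theorem phi_smul {R : Type*} [CommRing R] (c X Y : R) :
    phi (c * X) (c * Y) = c ^ 2 * phi X Y := by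
  unfold phi
  ring

theorem C_kA {R : Type*} [CommRing R] (a b : R) : kA (C a) (C b) = C (kA a b) := by
  simp only [kA, map_add, map_sub, map_mul, map_pow, map_ofNat]

theorem C_kB {R : Type*} [CommRing R] (a b : R) : kB (C a) (C b) = C (kB a b) := by
  simp only [kB, map_add, map_sub, map_mul, map_pow, map_ofNat]

theorem C_eta {R : Type*} [CommRing R] (a b : R) : eta (C a) (C b) = C (eta a b) := by
  simp only [eta, map_add, map_sub, map_mul, map_pow, map_ofNat]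

theorem C_theta {R : Type*} [CommRing R] (a b : R) : theta (C a) (C b) = C (theta a b) := by
  simp only [theta, map_add, map_sub, map_mul, map_pow, map_ofNat]

variable {k : Type*} [Field k] [CharZero k]

/-- The discriminant hypothesis gives `f(u₀) ≠ 0`. -/
theorem f_ne_zero_of_disc {x₀ y₀ : k}
    (h : eta (x₀ ^ 5) (y₀ ^ 5) ^ 3 ≠ theta (x₀ ^ 5) (y₀ ^ 5) ^ 2) :
    x₀ * y₀ * phi (x₀ ^ 5) (y₀ ^ 5) ≠ 0 := by
  intro h0
  apply h
  have hs := syzygy (x₀ ^ 5) (y₀ ^ 5)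
  have h5 : x₀ ^ 5 * y₀ ^ 5 * phi (x₀ ^ 5) (y₀ ^ 5) ^ 5
      = (x₀ * y₀ * phi (x₀ ^ 5) (y₀ ^ 5)) ^ 5 := by ring
  rw [h5, h0] at hs
  linear_combination hs

variable [IsAlgClosed k]

/-- **(HIT-4), Klein-free core.** Along `m = μ₀ + μ₁ X` (with `μ₁ ≠ 0`, `n ≠ 0`) the member
`(η, θ)(X₀ (m + n A₀)⁵, Y₀ (m - n B₀)⁵)` of the Klein family through a base point `u₀ = (x₀, y₀)`
with `f(u₀) ≠ 0` has no root of its 3-division quartic in `k[X]`.  The two arguments of `quart3`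
are literally the left-hand sides of `famH_eq` / `famT_eq` at
`X := C (x₀ ^ 5)`, `Y := C (y₀ ^ 5)`, `m := C μ₀ + C μ₁ * X`, `n := C n`. -/
theorem no_root_fam (x₀ y₀ μ₀ μ₁ n : k) (hf : x₀ * y₀ * phi (x₀ ^ 5) (y₀ ^ 5) ≠ 0)
    (hn : n ≠ 0) (hμ : μ₁ ≠ 0) (z : k[X]) :
    quart3
      (eta (C (x₀ ^ 5) * ((C μ₀ + C μ₁ * X) + C n * kA (C (x₀ ^ 5)) (C (y₀ ^ 5))) ^ 5)
        (C (y₀ ^ 5) * ((C μ₀ + C μ₁ * X) - C n * kB (C (x₀ ^ 5)) (C (y₀ ^ 5))) ^ 5))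
      (theta (C (x₀ ^ 5) * ((C μ₀ + C μ₁ * X) + C n * kA (C (x₀ ^ 5)) (C (y₀ ^ 5))) ^ 5)
        (C (y₀ ^ 5) * ((C μ₀ + C μ₁ * X) - C n * kB (C (x₀ ^ 5)) (C (y₀ ^ 5))) ^ 5)) z ≠ 0 := by
  have e1 : C (x₀ ^ 5) * ((C μ₀ + C μ₁ * X) + C n * kA (C (x₀ ^ 5)) (C (y₀ ^ 5))) ^ 5
      = (C (x₀ * (μ₀ + n * kA (x₀ ^ 5) (y₀ ^ 5))) + C (x₀ * μ₁) * X) ^ 5 := by
    rw [C_kA]
    simp only [map_add, map_mul, map_pow]
    ring
  have e2 : C (y₀ ^ 5) * ((C μ₀ + C μ₁ * X) - C n * kB (C (x₀ ^ 5)) (C (y₀ ^ 5))) ^ 5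
      = (C (y₀ * (μ₀ - n * kB (x₀ ^ 5) (y₀ ^ 5))) + C (y₀ * μ₁) * X) ^ 5 := by
    rw [C_kB]
    simp only [map_sub, map_mul, map_pow]
    ring
  rw [e1, e2]
  have h12 : (12 : k) ≠ 0 := by norm_num
  refine no_root_on_line _ _ _ _ ?_ ?_ z
  · have hAB := kA_add_kB (x₀ ^ 5) (y₀ ^ 5)
    have : x₀ * (μ₀ + n * kA (x₀ ^ 5) (y₀ ^ 5)) * (y₀ * μ₁)
        - y₀ * (μ₀ - n * kB (x₀ ^ 5) (y₀ ^ 5)) * (x₀ * μ₁)
        = 12 * n * μ₁ * (x₀ * y₀ * phi (x₀ ^ 5) (y₀ ^ 5)) := by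
      linear_combination (x₀ * y₀ * μ₁ * n) * hAB
    rw [this]
    exact mul_ne_zero (mul_ne_zero (mul_ne_zero h12 hn) hμ) hf
  · have hp : phi ((x₀ * μ₁) ^ 5) ((y₀ * μ₁) ^ 5) = (μ₁ ^ 5) ^ 2 * phi (x₀ ^ 5) (y₀ ^ 5) := by
      rw [← phi_smul]
      congr 1 <;> ring
    have : x₀ * μ₁ * (y₀ * μ₁) * phi ((x₀ * μ₁) ^ 5) ((y₀ * μ₁) ^ 5)
        = μ₁ ^ 12 * (x₀ * y₀ * phi (x₀ ^ 5) (y₀ ^ 5)) := by
      rw [hp]
      ring
    rw [this]
    exact mul_ne_zero (pow_ne_zero 12 hμ) hf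

end Fam

end Fermat.Agent.S52P.HIT.Line51
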