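import Mathlib

/-!
# S52 (P), brick (HIT-1 REAL): real approximation of the roots of a polynomial family

`exists_approx` : for a monic two-variable real polynomial `G(t, ζ)` whose fibre at `t = 0` has
only simple real roots, finitely many polynomials `p` of degree at most `N` in `t` approximate
every real root `ζ` of `G(t, ·)` to order `|t| ^ (N + 1)`, uniformly for small `t`.

`quart_approx_t`, `quart_approx` : the case of the family of quartics
`z⁴ - 6 H z² - 8 T z - 3 H²` (the 3-division quartic in the coordinates `c₄ = H`, `c₆ = T`),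
near `t = 0` and, for polynomial coefficients `H(m)`, `T(m)` of degrees at most 20 and 30,
for large `m`.

Proof: Hensel lifting in `ℝ[t]` modulo `t ^ (N + 1)`, a bound for the roots, compactness, and
the mean value theorem.  Mathlib only.
-/

namespace Fermat.Agent.S52P.HIT.Real

open Polynomial Filter Topology

noncomputable section

/-- The value of a two-variable real polynomial as an explicit finite sum. -/
theorem evalEval_eq_sum (G : ℝ[X][X]) (t ζ : ℝ) :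
    G.evalEval t ζ = ∑ i ∈ Finset.range (G.natDegree + 1), (G.coeff i).eval t * ζ ^ i := by
  rw [← eval₂_evalRingHom, eval₂_eq_sum_range]
  rfl

/-- Joint continuity of a two-variable real polynomial. -/
theorem continuous_evalEval (G : ℝ[X][X]) :
    Continuous fun x : ℝ × ℝ => G.evalEval x.1 x.2 := by
  simp_rw [evalEval_eq_sum]
  refine continuous_finsetSum _ fun i _ => ?_
  exact ((G.coeff i).continuous.comp continuous_fst).mul (continuous_snd.pow i)

/-- Substituting a polynomial in the outer variable and then evaluating. -/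
theorem eval_eval_eq (F : ℝ[X][X]) (p : ℝ[X]) (t : ℝ) :
    (F.eval p).eval t = F.evalEval t (p.eval t) := by
  rw [← eval₂_evalRingHom, ← coe_evalRingHom, ← eval₂_id (p := F), hom_eval₂]
  simp

/-- Hensel lifting of a simple root in `ℝ[t]` modulo `t ^ (N + 1)`. -/
theorem hensel (G : ℝ[X][X]) (β : ℝ) (h0 : G.evalEval 0 β = 0)
    (h1 : (derivative G).evalEval 0 β ≠ 0) (N : ℕ) :
    ∃ p : ℝ[X], p.natDegree ≤ N ∧ p.eval 0 = β ∧ X ^ (N + 1) ∣ G.eval p := by
  induction N with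
  | zero =>
    refine ⟨C β, by simp, by simp, ?_⟩
    rw [zero_add, pow_one, X_dvd_iff, coeff_zero_eq_eval_zero]
    exact h0
  | succ N ih =>
    obtain ⟨p, hp, hp0, q, hq⟩ := ih
    set c : ℝ := - q.eval 0 / (derivative G).evalEval 0 β with hc
    refine ⟨p + C c * X ^ (N + 1), ?_, ?_, ?_⟩
    · refine (natDegree_add_le _ _).trans (max_le (hp.trans (Nat.le_succ N)) ?_)
      exact natDegree_C_mul_X_pow_le c (N + 1)
    · simp [hp0]
    · obtain ⟨k, hk⟩ := binomExpansion G p (C c * X ^ (N + 1))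
      have h2 : X ∣ q + (derivative G).eval p * C c := by
        rw [X_dvd_iff, coeff_zero_eq_eval_zero, eval_add, eval_mul, eval_C, eval_eval_eq, hp0, hc]
        field_simp
        ring
      obtain ⟨r, hr⟩ := h2
      refine ⟨r + k * C c ^ 2 * X ^ N, ?_⟩
      rw [hk, hq]
      linear_combination (X ^ (N + 1)) * hr

/-- A root of a monic real polynomial with coefficients bounded by `A` is bounded by
`1 + d * A`. -/
theorem abs_root_le (d : ℕ) (a : ℕ → ℝ) (A ζ : ℝ) (ha : ∀ i < d, |a i| ≤ A)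
    (h : ζ ^ d + ∑ i ∈ Finset.range d, a i * ζ ^ i = 0) : |ζ| ≤ 1 + d * A := by
  by_contra hcon
  push Not at hcon
  rcases Nat.eq_zero_or_pos d with rfl | hd
  · simp at h
  have hA : 0 ≤ A := (abs_nonneg _).trans (ha 0 hd)
  have hdA : 0 ≤ (d : ℝ) * A := mul_nonneg (Nat.cast_nonneg d) hA
  have h1 : 1 < |ζ| := by linarith
  have hpos : 0 < |ζ| ^ (d - 1) := pow_pos (by linarith) _
  have hsum : |∑ i ∈ Finset.range d, a i * ζ ^ i| ≤ d * A * |ζ| ^ (d - 1) := by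
    calc |∑ i ∈ Finset.range d, a i * ζ ^ i|
        ≤ ∑ i ∈ Finset.range d, |a i * ζ ^ i| := Finset.abs_sum_le_sum_abs _ _
      _ ≤ ∑ _i ∈ Finset.range d, A * |ζ| ^ (d - 1) := by
          refine Finset.sum_le_sum fun i hi => ?_
          rw [abs_mul, abs_pow]
          have hi' : i < d := Finset.mem_range.mp hi
          exact mul_le_mul (ha i hi') (pow_le_pow_right₀ h1.le (by omega))
            (pow_nonneg (abs_nonneg _) _) hA
      _ = d * A * |ζ| ^ (d - 1) := by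
          rw [Finset.sum_const, Finset.card_range, nsmul_eq_mul]; ring
  have hpow : |ζ| ^ d = |ζ| * |ζ| ^ (d - 1) := by
    rw [← pow_succ']
    congr 1
    omega
  have h3 : |ζ| ^ d = |∑ i ∈ Finset.range d, a i * ζ ^ i| := by
    rw [← abs_pow, eq_neg_of_add_eq_zero_left h, abs_neg]
  have h4 : |ζ| * |ζ| ^ (d - 1) ≤ d * A * |ζ| ^ (d - 1) := by
    rw [← hpow, h3]; exact hsum
  have h5 : |ζ| ≤ d * A := le_of_mul_le_mul_right h4 hpos
  linarith

/-- The real roots of a monic two-variable polynomial stay bounded for `|t| ≤ 1`. -/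
theorem exists_root_bound (G : ℝ[X][X]) (hG : G.Monic) :
    ∃ R : ℝ, ∀ t ζ : ℝ, |t| ≤ 1 → G.evalEval t ζ = 0 → |ζ| ≤ R := by
  have hcont : ContinuousOn
      (fun t : ℝ => ∑ i ∈ Finset.range G.natDegree, |(G.coeff i).eval t|) (Set.Icc (-1) 1) := by
    refine Continuous.continuousOn ?_
    exact continuous_finsetSum _ fun i _ => (G.coeff i).continuous.abs
  obtain ⟨A, hA⟩ := isCompact_Icc.exists_bound_of_continuousOn hcont
  refine ⟨1 + G.natDegree * A, fun t ζ ht h => ?_⟩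
  refine abs_root_le G.natDegree (fun i => (G.coeff i).eval t) A ζ (fun i hi => ?_) ?_
  · have h1 := hA t (Set.mem_Icc.mpr (abs_le.mp ht))
    rw [Real.norm_eq_abs] at h1
    refine le_trans ?_ ((le_abs_self _).trans h1)
    exact Finset.single_le_sum (f := fun i => |(G.coeff i).eval t|)
      (fun j _ => abs_nonneg _) (Finset.mem_range.mpr hi)
  · rw [evalEval_eq_sum, Finset.sum_range_succ, hG.coeff_natDegree] at h
    rw [← h]
    simp [add_comm]

/-- For small `t`, every real root of `G(t, ·)` is close to a real root of `G(0, ·)`. -/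
theorem exists_near_root (G : ℝ[X][X]) (hG : G.Monic) (B : Finset ℝ)
    (hB : ∀ β : ℝ, G.evalEval 0 β = 0 → β ∈ B) (δ : ℝ) (hδ : 0 < δ) :
    ∃ ε : ℝ, 0 < ε ∧ ∀ t ζ : ℝ, |t| < ε → G.evalEval t ζ = 0 → ∃ β ∈ B, |ζ - β| < δ := by
  obtain ⟨R, hR⟩ := exists_root_bound G hG
  set K : Set ℝ := Metric.closedBall 0 R ∩ ⋂ β ∈ B, {ζ : ℝ | δ ≤ |ζ - β|} with hK
  have hKc : IsCompact K := by
    refine (isCompact_closedBall 0 R).inter_right ?_
    refine isClosed_biInter fun β _ => ?_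
    exact isClosed_le continuous_const ((continuous_id.sub continuous_const).abs)
  have hev : ∀ᶠ t in 𝓝 (0 : ℝ), ∀ ζ ∈ K, G.evalEval t ζ ≠ 0 := by
    refine hKc.eventually_forall_of_forall_eventually fun ζ hζ => ?_
    have hne : G.evalEval 0 ζ ≠ 0 := by
      intro h0
      have h1 := hζ.2
      simp only [Set.mem_iInter, Set.mem_ofPred_eq] at h1
      have h2 := h1 ζ (hB ζ h0)
      simp at h2
      linarith
    exact (continuous_evalEval G).continuousAt.eventually_ne hne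
  obtain ⟨ε, hε, hball⟩ := Metric.eventually_nhds_iff.mp hev
  refine ⟨min ε 1, lt_min hε one_pos, fun t ζ ht h => ?_⟩
  by_contra hcon
  push Not at hcon
  have ht1 : |t| ≤ 1 := (ht.trans_le (min_le_right _ _)).le
  have htε : dist t 0 < ε := by
    rw [Real.dist_eq, sub_zero]; exact ht.trans_le (min_le_left _ _)
  refine hball htε ζ ⟨?_, ?_⟩ h
  · rw [Metric.mem_closedBall, Real.dist_eq, sub_zero]; exact hR t ζ ht1 h
  · simp only [Set.mem_iInter, Set.mem_ofPred_eq]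
    exact hcon

/-- The mean value theorem for a real polynomial, between two arbitrary points. -/
theorem exists_eval_sub_eq (f : ℝ[X]) (a b : ℝ) :
    ∃ ξ ∈ Set.uIcc a b, f.eval b - f.eval a = f.derivative.eval ξ * (b - a) := by
  have key : ∀ a b : ℝ, a < b →
      ∃ ξ ∈ Set.uIcc a b, f.eval b - f.eval a = f.derivative.eval ξ * (b - a) := by
    intro a b hab
    obtain ⟨ξ, hξ, h⟩ := exists_hasDerivAt_eq_slope (fun x => f.eval x)
      (fun x => f.derivative.eval x) hab f.continuous.continuousOn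
      (fun x _ => f.hasDerivAt x)
    refine ⟨ξ, ?_, ?_⟩
    · rw [Set.uIcc_of_le hab.le]; exact Set.Ioo_subset_Icc_self hξ
    · have hne : b - a ≠ 0 := sub_ne_zero.mpr hab.ne'
      rw [h]; field_simp
  rcases lt_trichotomy a b with hab | rfl | hab
  · exact key a b hab
  · exact ⟨a, Set.left_mem_uIcc, by simp⟩
  · obtain ⟨ξ, hξ, h⟩ := key b a hab
    exact ⟨ξ, Set.uIcc_comm b a ▸ hξ, by linear_combination -h⟩

/-- Near a simple real root `β` of `G(0, ·)`, every real root of `G(t, ·)` is approximated to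
order `t ^ (N + 1)` by a polynomial of degree at most `N` in `t`. -/
theorem local_approx (G : ℝ[X][X]) (N : ℕ) (β : ℝ) (h0 : G.evalEval 0 β = 0)
    (h1 : (derivative G).evalEval 0 β ≠ 0) :
    ∃ (p : ℝ[X]) (δ K : ℝ), 0 < δ ∧ 0 ≤ K ∧ p.natDegree ≤ N ∧
      ∀ t ζ : ℝ, |t| < δ → |ζ - β| < δ → G.evalEval t ζ = 0 →
        |ζ - p.eval t| ≤ K * |t| ^ (N + 1) := by
  obtain ⟨p, hpN, hp0, q, hq⟩ := hensel G β h0 h1 N
  set c : ℝ := |(derivative G).evalEval 0 β| / 2 with hc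
  have hcpos : 0 < c := by positivity
  -- the derivative stays away from zero near `(0, β)`
  obtain ⟨δ₁, hδ₁, hder⟩ : ∃ δ₁ : ℝ, 0 < δ₁ ∧ ∀ t ξ : ℝ, |t| < δ₁ → |ξ - β| < δ₁ →
      c ≤ |(derivative G).evalEval t ξ| := by
    have hca := (continuous_evalEval (derivative G)).continuousAt (x := ((0 : ℝ), β))
    obtain ⟨δ₁, hδ₁, h⟩ := Metric.continuousAt_iff.mp hca c hcpos
    refine ⟨δ₁, hδ₁, fun t ξ ht hξ => ?_⟩
    have hd : dist ((t, ξ) : ℝ × ℝ) (0, β) < δ₁ := by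
      rw [Prod.dist_eq]
      simp only [Real.dist_eq, sub_zero]
      exact max_lt ht hξ
    have h2 := h hd
    rw [Real.dist_eq] at h2
    have h3 := abs_sub_abs_le_abs_sub ((derivative G).evalEval 0 β) ((derivative G).evalEval t ξ)
    rw [abs_sub_comm] at h3
    simp only at h2
    rw [hc] at h2 ⊢
    linarith
  -- the approximant stays near `β`
  obtain ⟨δ₂, hδ₂, hpc⟩ : ∃ δ₂ : ℝ, 0 < δ₂ ∧ ∀ t : ℝ, |t| < δ₂ → |p.eval t - β| < δ₁ := by
    have hca := p.continuous.continuousAt (x := (0 : ℝ))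
    obtain ⟨δ₂, hδ₂, h⟩ := Metric.continuousAt_iff.mp hca δ₁ hδ₁
    refine ⟨δ₂, hδ₂, fun t ht => ?_⟩
    have h2 := h (show dist t 0 < δ₂ by rw [Real.dist_eq, sub_zero]; exact ht)
    rwa [Real.dist_eq, hp0] at h2
  -- the cofactor is bounded
  obtain ⟨Q, hQ⟩ := isCompact_Icc.exists_bound_of_continuousOn
    (q.continuous.continuousOn (s := Set.Icc (-1 : ℝ) 1))
  have hQ0 : 0 ≤ Q := (norm_nonneg _).trans (hQ 0 (by simp))
  refine ⟨p, min δ₁ (min δ₂ 1), Q / c, lt_min hδ₁ (lt_min hδ₂ one_pos), by positivity, hpN,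
    fun t ζ ht hζ h => ?_⟩
  have ht1 : |t| < δ₁ := ht.trans_le (min_le_left _ _)
  have ht2 : |t| < δ₂ := ht.trans_le ((min_le_right _ _).trans (min_le_left _ _))
  have ht3 : |t| ≤ 1 := (ht.trans_le ((min_le_right _ _).trans (min_le_right _ _))).le
  have hζ1 : |ζ - β| < δ₁ := hζ.trans_le (min_le_left _ _)
  have hπ : |p.eval t - β| < δ₁ := hpc t ht2
  obtain ⟨ξ, hξ, hmv⟩ := exists_eval_sub_eq (G.map (evalRingHom t)) (p.eval t) ζ
  rw [map_evalRingHom_eval, map_evalRingHom_eval, derivative_map, map_evalRingHom_eval, h,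
    ← eval_eval_eq, hq, eval_mul, eval_pow, eval_X] at hmv
  have hξβ : |ξ - β| < δ₁ := by
    rw [Set.mem_uIcc] at hξ
    rw [abs_lt] at hζ1 hπ ⊢
    rcases hξ with ⟨h1, h2⟩ | ⟨h1, h2⟩ <;> constructor <;> linarith
  have hd := hder t ξ ht1 hξβ
  have hq1 : |q.eval t| ≤ Q := by
    have := hQ t (Set.mem_Icc.mpr (abs_le.mp ht3))
    rwa [Real.norm_eq_abs] at this
  have habs : |(derivative G).evalEval t ξ| * |ζ - p.eval t| = |t| ^ (N + 1) * |q.eval t| := by
    rw [← abs_mul, ← hmv, zero_sub, abs_neg, abs_mul, abs_pow]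
  have h5 : c * |ζ - p.eval t| ≤ Q * |t| ^ (N + 1) := by
    calc c * |ζ - p.eval t| ≤ |(derivative G).evalEval t ξ| * |ζ - p.eval t| :=
          mul_le_mul_of_nonneg_right hd (abs_nonneg _)
      _ = |t| ^ (N + 1) * |q.eval t| := habs
      _ ≤ |t| ^ (N + 1) * Q := mul_le_mul_of_nonneg_left hq1 (pow_nonneg (abs_nonneg _) _)
      _ = Q * |t| ^ (N + 1) := mul_comm _ _
  rw [div_mul_eq_mul_div, le_div_iff₀ hcpos]
  linarith

/-- A finite family of positive reals has a positive lower bound. -/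
theorem exists_pos_le (B : Finset ℝ) (f : ℝ → ℝ) (hf : ∀ β ∈ B, 0 < f β) :
    ∃ δ : ℝ, 0 < δ ∧ ∀ β ∈ B, δ ≤ f β := by
  induction B using Finset.induction_on with
  | empty => exact ⟨1, one_pos, by simp⟩
  | insert a s _ ih =>
    obtain ⟨δ, hδ, h⟩ := ih fun β hβ => hf β (Finset.mem_insert_of_mem hβ)
    refine ⟨min δ (f a), lt_min hδ (hf a (Finset.mem_insert_self a s)), fun β hβ => ?_⟩
    rcases Finset.mem_insert.mp hβ with rfl | hβ
    · exact min_le_right _ _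
    · exact (min_le_left _ _).trans (h β hβ)

/-- **(R-gen)** Uniform polynomial approximation of the real roots of a monic family `G(t, ·)`
whose fibre at `t = 0` has only simple real roots. -/
theorem exists_approx (G : ℝ[X][X]) (hG : G.Monic)
    (hs : ∀ β : ℝ, G.evalEval 0 β = 0 → (derivative G).evalEval 0 β ≠ 0) (N : ℕ) :
    ∃ (S : Finset ℝ[X]) (ε K : ℝ), 0 < ε ∧ (∀ p ∈ S, p.natDegree ≤ N) ∧
      ∀ t ζ : ℝ, |t| < ε → G.evalEval t ζ = 0 →
        ∃ p ∈ S, |ζ - p.eval t| ≤ K * |t| ^ (N + 1) := by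
  classical
  have hg0 : G.map (evalRingHom (0 : ℝ)) ≠ 0 := (hG.map _).ne_zero
  set B : Finset ℝ := (G.map (evalRingHom (0 : ℝ))).roots.toFinset with hBdef
  have hB : ∀ β : ℝ, G.evalEval 0 β = 0 ↔ β ∈ B := by
    intro β
    rw [hBdef, Multiset.mem_toFinset, mem_roots hg0, IsRoot.def, map_evalRingHom_eval]
  have key : ∀ β : ℝ, ∃ (p : ℝ[X]) (δ K : ℝ), 0 < δ ∧ 0 ≤ K ∧ p.natDegree ≤ N ∧
      (G.evalEval 0 β = 0 → ∀ t ζ : ℝ, |t| < δ → |ζ - β| < δ → G.evalEval t ζ = 0 →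
        |ζ - p.eval t| ≤ K * |t| ^ (N + 1)) := by
    intro β
    by_cases h0 : G.evalEval 0 β = 0
    · obtain ⟨p, δ, K, h1, h2, h3, h4⟩ := local_approx G N β h0 (hs β h0)
      exact ⟨p, δ, K, h1, h2, h3, fun _ => h4⟩
    · exact ⟨0, 1, 0, one_pos, le_rfl, by simp, fun h => absurd h h0⟩
  choose p δ K hδ hK hp hloc using key
  obtain ⟨δ₀, hδ₀, hδ₀le⟩ := exists_pos_le B δ fun β _ => hδ β
  obtain ⟨ε₁, hε₁, hnear⟩ := exists_near_root G hG B (fun β h => (hB β).mp h) δ₀ hδ₀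
  refine ⟨B.image p, min ε₁ δ₀, ∑ β ∈ B, K β, lt_min hε₁ hδ₀, ?_, fun t ζ ht h => ?_⟩
  · intro P hP
    obtain ⟨β, -, rfl⟩ := Finset.mem_image.mp hP
    exact hp β
  · obtain ⟨β, hβ, hζ⟩ := hnear t ζ (ht.trans_le (min_le_left _ _)) h
    refine ⟨p β, Finset.mem_image_of_mem p hβ, ?_⟩
    have h1 := hloc β ((hB β).mpr hβ) t ζ
      ((ht.trans_le (min_le_right _ _)).trans_le (hδ₀le β hβ)) (hζ.trans_le (hδ₀le β hβ)) h
    refine h1.trans (mul_le_mul_of_nonneg_right ?_ (pow_nonneg (abs_nonneg _) _))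
    exact Finset.single_le_sum (f := K) (fun j _ => hK j) hβ

/-- The two-variable polynomial `ζ⁴ - 6 H ζ² - 8 T ζ - 3 H²`. -/
def quartPoly (Hr Tr : ℝ[X]) : ℝ[X][X] :=
  X ^ 4 - C (6 * Hr) * X ^ 2 - C (8 * Tr) * X - C (3 * Hr ^ 2)

theorem quartPoly_monic (Hr Tr : ℝ[X]) : (quartPoly Hr Tr).Monic := by
  unfold quartPoly
  monicity!

theorem quartPoly_evalEval (Hr Tr : ℝ[X]) (t ζ : ℝ) :
    (quartPoly Hr Tr).evalEval t ζ =
      ζ ^ 4 - 6 * Hr.eval t * ζ ^ 2 - 8 * Tr.eval t * ζ - 3 * Hr.eval t ^ 2 := by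
  simp [quartPoly, evalEval]

theorem quartPoly_derivative_evalEval (Hr Tr : ℝ[X]) (t ζ : ℝ) :
    (derivative (quartPoly Hr Tr)).evalEval t ζ =
      4 * ζ ^ 3 - 12 * Hr.eval t * ζ - 8 * Tr.eval t := by
  unfold quartPoly
  rw [derivative_sub, derivative_sub, derivative_sub, derivative_C, derivative_C_mul,
    derivative_C_mul, derivative_X_pow, derivative_X_pow, derivative_X]
  simp [evalEval]
  ring

/-- The quartic `z⁴ - 6 c₄ z² - 8 c₆ z - 3 c₄²` has no multiple root when `c₄ ≠ 0` and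
`c₄³ ≠ c₆²`. -/
theorem quart_simple (c₄ c₆ z : ℝ) (h4 : c₄ ≠ 0) (hd : c₄ ^ 3 ≠ c₆ ^ 2)
    (h0 : z ^ 4 - 6 * c₄ * z ^ 2 - 8 * c₆ * z - 3 * c₄ ^ 2 = 0) :
    4 * z ^ 3 - 12 * c₄ * z - 8 * c₆ ≠ 0 := by
  intro h1
  have h2 : 3 * (z ^ 2 - c₄) ^ 2 = 0 := by linear_combination z * h1 - h0
  have h3 : z ^ 2 = c₄ := by
    have := pow_eq_zero_iff (n := 2) (by norm_num) |>.mp (by linarith : (z ^ 2 - c₄) ^ 2 = 0)
    linarith
  have h4' : 64 * z ^ 2 * (c₄ ^ 3 - c₆ ^ 2) = 0 := by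
    have e : 64 * z ^ 2 * (c₄ ^ 3 - c₆ ^ 2) = (z ^ 2 - c₄) ^ 3 * (9 * c₄ - z ^ 2) +
        (z ^ 4 - 6 * c₄ * z ^ 2 - 8 * c₆ * z - 3 * c₄ ^ 2) *
          ((-z) ^ 4 - 6 * c₄ * (-z) ^ 2 - 8 * c₆ * (-z) - 3 * c₄ ^ 2) := by ring
    rw [e, h0, h3]; ring
  have h5 : z ^ 2 = 0 := by
    rcases mul_eq_zero.mp h4' with h | h
    · linarith
    · exact absurd (sub_eq_zero.mp h) hd
  exact h4 (h3 ▸ h5)

/-- **(R-t)** the quartic family in the variable `t` near `0`. -/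
theorem quart_approx_t (Hr Tr : ℝ[X]) (h4 : Hr.eval 0 ≠ 0)
    (hd : Hr.eval 0 ^ 3 ≠ Tr.eval 0 ^ 2) (N : ℕ) :
    ∃ (S : Finset ℝ[X]) (ε K : ℝ), 0 < ε ∧ (∀ p ∈ S, p.natDegree ≤ N) ∧
      ∀ t ζ : ℝ, |t| < ε →
        ζ ^ 4 - 6 * Hr.eval t * ζ ^ 2 - 8 * Tr.eval t * ζ - 3 * Hr.eval t ^ 2 = 0 →
        ∃ p ∈ S, |ζ - p.eval t| ≤ K * |t| ^ (N + 1) := by
  obtain ⟨S, ε, K, hε, hS, h⟩ := exists_approx (quartPoly Hr Tr) (quartPoly_monic Hr Tr)
    (fun β h0 => by
      rw [quartPoly_evalEval] at h0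
      rw [quartPoly_derivative_evalEval]
      exact quart_simple _ _ β h4 hd h0) N
  exact ⟨S, ε, K, hε, hS, fun t ζ ht h0 => h t ζ ht (by rw [quartPoly_evalEval]; exact h0)⟩

/-- Evaluating a reflected polynomial: `(reflect N f)(m) = m ^ N * f(1/m)`. -/
theorem eval_reflect_inv (N : ℕ) (f : ℝ[X]) (hf : f.natDegree ≤ N) (m : ℝ) (hm : m ≠ 0) :
    (reflect N f).eval m⁻¹ * m ^ N = f.eval m := by
  let _ : Invertible m := invertibleOfNonzero hm
  have := eval₂_reflect_mul_pow (RingHom.id ℝ) m N f hf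
  rwa [invOf_eq_inv] at this

theorem eval_reflect_zero (N : ℕ) (f : ℝ[X]) : (reflect N f).eval 0 = f.coeff N := by
  rw [← coeff_zero_eq_eval_zero, coeff_reflect, revAt_le (Nat.zero_le N), Nat.sub_zero]

/-- **(R-m)** the quartic family `z⁴ - 6 H(m) z² - 8 T(m) z - 3 H(m)²` for large `m`: every real
root is within `1/4096` of the value at `m` of one of finitely many polynomials of degree at
most `10`. -/
theorem quart_approx (H T : ℝ[X]) (hH : H.natDegree ≤ 20) (hT : T.natDegree ≤ 30)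
    (h4 : H.coeff 20 ≠ 0) (hd : H.coeff 20 ^ 3 ≠ T.coeff 30 ^ 2) :
    ∃ (S : Finset ℝ[X]) (M₀ : ℝ), (∀ P ∈ S, P.natDegree ≤ 10) ∧
      ∀ m : ℝ, M₀ ≤ m → ∀ z : ℝ,
        z ^ 4 - 6 * H.eval m * z ^ 2 - 8 * T.eval m * z - 3 * H.eval m ^ 2 = 0 →
        ∃ P ∈ S, |z - P.eval m| < 1 / 4096 := by
  classical
  obtain ⟨S, ε, K, hε, hS, h⟩ := quart_approx_t (reflect 20 H) (reflect 30 T)
    (by rwa [eval_reflect_zero]) (by rwa [eval_reflect_zero, eval_reflect_zero]) 10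
  refine ⟨S.image (reflect 10), max (1 / ε + 1) (4096 * |K| + 1), ?_, fun m hm z hz => ?_⟩
  · intro P hP
    obtain ⟨p, hp, rfl⟩ := Finset.mem_image.mp hP
    exact natDegree_reflect_le.trans (max_le le_rfl (hS p hp))
  have hm1 : 1 / ε + 1 ≤ m := (le_max_left _ _).trans hm
  have hm2 : 4096 * |K| + 1 ≤ m := (le_max_right _ _).trans hm
  have hεinv : 0 < 1 / ε := by positivity
  have hmpos : 0 < m := by linarith
  have hm0 : m ≠ 0 := hmpos.ne'
  have htpos : 0 < m⁻¹ := inv_pos.mpr hmpos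
  have ht : |m⁻¹| < ε := by
    rw [abs_of_pos htpos, inv_lt_comm₀ hmpos hε, ← one_div]
    linarith
  have hHe := eval_reflect_inv 20 H hH m hm0
  have hTe := eval_reflect_inv 30 T hT m hm0
  have hmm : m⁻¹ * m = 1 := inv_mul_cancel₀ hm0
  have hroot : (z * m⁻¹ ^ 10) ^ 4 - 6 * (reflect 20 H).eval m⁻¹ * (z * m⁻¹ ^ 10) ^ 2
      - 8 * (reflect 30 T).eval m⁻¹ * (z * m⁻¹ ^ 10) - 3 * (reflect 20 H).eval m⁻¹ ^ 2 = 0 := by
    have e1 : (reflect 20 H).eval m⁻¹ = H.eval m * m⁻¹ ^ 20 := by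
      rw [← hHe, mul_assoc, ← mul_pow, mul_comm m, hmm, one_pow, mul_one]
    have e2 : (reflect 30 T).eval m⁻¹ = T.eval m * m⁻¹ ^ 30 := by
      rw [← hTe, mul_assoc, ← mul_pow, mul_comm m, hmm, one_pow, mul_one]
    rw [e1, e2]
    linear_combination (m⁻¹ ^ 40) * hz
  obtain ⟨p, hp, hpz⟩ := h m⁻¹ (z * m⁻¹ ^ 10) ht hroot
  refine ⟨reflect 10 p, Finset.mem_image_of_mem _ hp, ?_⟩
  have hPe : (reflect 10 p).eval m = p.eval m⁻¹ * m ^ 10 := by
    have := eval_reflect_inv 10 p (hS p hp) m⁻¹ (inv_ne_zero hm0)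
    rw [inv_inv] at this
    rw [← this, mul_assoc, ← mul_pow, hmm, one_pow, mul_one]
  have hzz : z - (reflect 10 p).eval m = (z * m⁻¹ ^ 10 - p.eval m⁻¹) * m ^ 10 := by
    rw [hPe, sub_mul, mul_assoc, ← mul_pow, hmm, one_pow, mul_one]
  rw [hzz, abs_mul, abs_pow, abs_of_pos hmpos]
  rw [abs_of_pos htpos] at hpz
  have hK : K * m⁻¹ ^ (10 + 1) * m ^ 10 = K * m⁻¹ := by
    have e : m⁻¹ ^ 10 * m ^ 10 = 1 := by rw [← mul_pow, hmm, one_pow]
    calc K * m⁻¹ ^ (10 + 1) * m ^ 10 = K * m⁻¹ * (m⁻¹ ^ 10 * m ^ 10) := by ring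
      _ = K * m⁻¹ := by rw [e, mul_one]
  calc |z * m⁻¹ ^ 10 - p.eval m⁻¹| * m ^ 10 ≤ K * m⁻¹ ^ (10 + 1) * m ^ 10 :=
        mul_le_mul_of_nonneg_right hpz (pow_nonneg hmpos.le _)
    _ = K * m⁻¹ := hK
    _ ≤ |K| * m⁻¹ := mul_le_mul_of_nonneg_right (le_abs_self K) htpos.le
    _ < 1 / 4096 := by
        rw [← div_eq_mul_inv, div_lt_div_iff₀ hmpos (by norm_num)]
        linarith

end

end Fermat.Agent.S52P.HIT.Real
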