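import Mathlib

/-!
# (P) HIT-2, abstract core: van der Waerden + eleventh differences + interpolation

If an integer sequence `z` is, at every index `i`, within `1/4096` of the value at `A + B * i`
of one of finitely many real polynomials of degree `≤ 10`, then along some arithmetic
progression of length `52` the sequence `z` is given by ONE rational polynomial of degree `≤ 10`.
-/

set_option autoImplicit false

namespace Fermat.Agent.S52P.HIT.VdwCore

open Polynomial Finset

/-- The coefficients of the eleventh forward difference. -/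
def dc (k : ℕ) : ℤ := (-1) ^ (11 - k) * (Nat.choose 11 k : ℤ)

theorem dc_eleven : dc 11 = 1 := by
  simp [dc]

theorem sum_abs_dc : ∑ k ∈ range 12, |dc k| = 2048 := by
  simp only [dc, abs_mul, abs_pow, abs_neg, abs_one, one_pow, one_mul]
  decide

/-- The eleventh forward difference of a polynomial of degree `≤ 10` vanishes. -/
theorem diff_poly_eq_zero {R : Type*} [CommRing R] (Q : R[X]) (hQ : Q.natDegree ≤ 10) (y : R) :
    ∑ k ∈ range 12, (dc k : R) * Q.eval (y + (k : R)) = 0 := by
  have h := congrFun (Polynomial.fwdDiff_iter_eq_zero_of_degree_lt (P := Q) (n := 11)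
    (by omega)) y
  rw [fwdDiff_iter_eq_sum_shift] at h
  simpa [dc, zsmul_eq_mul] using h

/-- An integer sequence which is `1/4096`-close to a real polynomial of degree `≤ 10` on
`y, …, y + 11` has vanishing eleventh difference at `y`. -/
theorem diff_int_eq_zero (Q : ℝ[X]) (hQ : Q.natDegree ≤ 10) (w : ℕ → ℤ) (y : ℕ)
    (h : ∀ k : ℕ, k < 12 → |(w (y + k) : ℝ) - Q.eval ((y : ℝ) + (k : ℝ))| < 1 / 4096) :
    ∑ k ∈ range 12, dc k * w (y + k) = 0 := by
  have h0 := diff_poly_eq_zero Q hQ (y : ℝ)
  have hcast : ((∑ k ∈ range 12, dc k * w (y + k) : ℤ) : ℝ)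
      = ∑ k ∈ range 12, (dc k : ℝ) * ((w (y + k) : ℝ) - Q.eval ((y : ℝ) + (k : ℝ))) := by
    push_cast
    simp only [mul_sub, Finset.sum_sub_distrib, h0, sub_zero]
  have hle : |((∑ k ∈ range 12, dc k * w (y + k) : ℤ) : ℝ)|
      ≤ ∑ k ∈ range 12, |(dc k : ℝ)| * (1 / 4096) := by
    rw [hcast]
    refine (Finset.abs_sum_le_sum_abs _ _).trans (Finset.sum_le_sum fun k hk => ?_)
    rw [abs_mul]
    exact mul_le_mul_of_nonneg_left (h k (Finset.mem_range.mp hk)).le (abs_nonneg _)
  have hsum : ∑ k ∈ range 12, |(dc k : ℝ)| * (1 / 4096) = 1 / 2 := by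
    rw [← Finset.sum_mul]
    have : ∑ k ∈ range 12, |(dc k : ℝ)| = 2048 := by
      have := congrArg (fun t : ℤ => (t : ℝ)) sum_abs_dc
      simpa using this
    rw [this]; norm_num
  rw [hsum] at hle
  have hlt : |(∑ k ∈ range 12, dc k * w (y + k) : ℤ)| < 1 := by
    have : |((∑ k ∈ range 12, dc k * w (y + k) : ℤ) : ℝ)| < 1 := lt_of_le_of_lt hle (by norm_num)
    exact_mod_cast this
  exact Int.abs_lt_one_iff.mp hlt

/-- A sequence whose eleventh differences vanish on `0, …, 40` is a polynomial of degree `≤ 10`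
on `0, …, 51`. -/
theorem exists_poly_of_diff_eq_zero (w : ℕ → ℤ)
    (h : ∀ y : ℕ, y ≤ 40 → ∑ k ∈ range 12, dc k * w (y + k) = 0) :
    ∃ I : ℚ[X], I.natDegree ≤ 10 ∧ ∀ j : ℕ, j < 52 → (w j : ℚ) = I.eval (j : ℚ) := by
  classical
  have hinj : Set.InjOn (fun i : ℕ => (i : ℚ)) (Finset.range 11 : Finset ℕ) :=
    fun x _ y _ hxy => Nat.cast_injective hxy
  refine ⟨Lagrange.interpolate (Finset.range 11) (fun i : ℕ => (i : ℚ)) (fun i => (w i : ℚ)),
    ?_, ?_⟩
  · have hdeg := Lagrange.degree_interpolate_lt (s := Finset.range 11)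
      (v := fun i : ℕ => (i : ℚ)) (fun i => (w i : ℚ)) hinj
    rw [Finset.card_range] at hdeg
    by_cases h0 : Lagrange.interpolate (Finset.range 11) (fun i : ℕ => (i : ℚ))
        (fun i => (w i : ℚ)) = 0
    · rw [h0]; simp
    · have := (Polynomial.natDegree_lt_iff_degree_lt h0).mpr hdeg
      omega
  · intro j
    induction j using Nat.strong_induction_on with
    | _ j ih =>
      intro hj
      rcases Nat.lt_or_ge j 11 with hj11 | hj11
      · exact (Lagrange.eval_interpolate_at_node (fun i => (w i : ℚ)) hinj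
          (Finset.mem_range.mpr hj11)).symm
      · obtain ⟨y, rfl⟩ : ∃ y, j = y + 11 := ⟨j - 11, by omega⟩
        set I := Lagrange.interpolate (Finset.range 11) (fun i : ℕ => (i : ℚ))
          (fun i => (w i : ℚ)) with hI
        have hIdeg : I.natDegree ≤ 10 := by
          have hdeg := Lagrange.degree_interpolate_lt (s := Finset.range 11)
            (v := fun i : ℕ => (i : ℚ)) (fun i => (w i : ℚ)) hinj
          rw [Finset.card_range] at hdeg
          by_cases h0 : I = 0
          · rw [h0]; simp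
          · have := (Polynomial.natDegree_lt_iff_degree_lt h0).mpr hdeg
            omega
        have h1 := h y (by omega)
        have h2 := diff_poly_eq_zero I hIdeg (y : ℚ)
        have h1' : ∑ k ∈ range 12, (dc k : ℚ) * (w (y + k) : ℚ) = 0 := by
          have := congrArg (fun t : ℤ => (t : ℚ)) h1
          simpa using this
        rw [Finset.sum_range_succ] at h1' h2
        have hsame : ∑ k ∈ range 11, (dc k : ℚ) * (w (y + k) : ℚ)
            = ∑ k ∈ range 11, (dc k : ℚ) * I.eval ((y : ℚ) + (k : ℚ)) := by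
          refine Finset.sum_congr rfl fun k hk => ?_
          have hk' := Finset.mem_range.mp hk
          rw [ih (y + k) (by omega) (by omega)]
          push_cast
          rfl
        rw [dc_eleven] at h1' h2
        push_cast at h1' h2 ⊢
        linarith

/-- **HIT-2 core.** -/
theorem exists_interpolant (S : Finset (Polynomial ℝ)) (hS : ∀ P ∈ S, P.natDegree ≤ 10)
    (A B : ℝ) (z : ℕ → ℤ)
    (h : ∀ i : ℕ, ∃ P ∈ S, |(z i : ℝ) - P.eval (A + B * i)| < 1 / 4096) :
    ∃ (a b : ℕ) (_ : 0 < a) (I : Polynomial ℚ), I.natDegree ≤ 10 ∧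
      ∀ j : ℕ, j < 52 → (z (a * j + b) : ℚ) = I.eval (j : ℚ) := by
  classical
  choose c hcS hc using h
  obtain ⟨a, ha, b, P, hP⟩ := Combinatorics.exists_mono_homothetic_copy (M := ℕ)
    (Finset.range 52) (fun i => (⟨c i, hcS i⟩ : S))
  have hPc : ∀ j : ℕ, j < 52 → c (a * j + b) = P.1 := by
    intro j hj
    have := hP j (Finset.mem_range.mpr hj)
    simpa [smul_eq_mul] using congrArg Subtype.val this
  -- the polynomial in the index `j`
  set Q : ℝ[X] := (P.1).comp (C (B * a) * X + C (A + B * b)) with hQ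
  have hQdeg : Q.natDegree ≤ 10 := by
    refine (Polynomial.natDegree_comp_le).trans ?_
    calc (P.1).natDegree * (C (B * a) * X + C (A + B * b)).natDegree
        ≤ 10 * 1 := Nat.mul_le_mul (hS _ P.2) (Polynomial.natDegree_linear_le)
      _ = 10 := by norm_num
  have hQeval : ∀ j : ℕ, Q.eval (j : ℝ) = (P.1).eval (A + B * ((a * j + b : ℕ) : ℝ)) := by
    intro j
    simp only [hQ, Polynomial.eval_comp, Polynomial.eval_add, Polynomial.eval_mul,
      Polynomial.eval_C, Polynomial.eval_X]
    congr 1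
    push_cast
    ring
  have hclose : ∀ j : ℕ, j < 52 →
      |((z (a * j + b) : ℤ) : ℝ) - Q.eval (j : ℝ)| < 1 / 4096 := by
    intro j hj
    rw [hQeval j, ← hPc j hj]
    exact hc (a * j + b)
  have hdiff : ∀ y : ℕ, y ≤ 40 →
      ∑ k ∈ range 12, dc k * (fun j => z (a * j + b)) (y + k) = 0 := by
    intro y hy
    refine diff_int_eq_zero Q hQdeg (fun j => z (a * j + b)) y fun k hk => ?_
    have := hclose (y + k) (by omega)
    simpa using this
  obtain ⟨I, hIdeg, hI⟩ := exists_poly_of_diff_eq_zero (fun j => z (a * j + b)) hdiff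
  exact ⟨a, b, ha, I, hIdeg, hI⟩

end Fermat.Agent.S52P.HIT.VdwCore
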