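import Mathlib
import Fermat.Agent.S52P.HIT.VdwCore

/-!
# (P) HIT-2: a polynomial root along a line

Klein-free consumer shape of HIT-2.  `Hm`, `Tm` are the two forms restricted to the variable `m`
(natDegree `≤ 20`, `≤ 30`); if for every `i` the integer `z i` is a root of the quartic
`Z^4 - 6 H Z^2 - 8 T Z - 3 H^2` at `m = m₀ + d * i`, and is `1/4096`-close to the value at
`m₀ + d * i` of one of finitely many real polynomials of degree `≤ 10`, then on some line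
`m = μ₀ + μ₁ X` (`μ₁ ≠ 0`) the quartic has a POLYNOMIAL root `I`.
-/

set_option autoImplicit false

namespace Fermat.Agent.S52P.HIT.VdwLine

open Polynomial Finset

/-- The quartic `Z^4 - 6 c₄ Z^2 - 8 c₆ Z - 3 c₄^2` (the `3`-division quartic in `z = 12 x + b₂`),
restated here over any commutative ring so that this file needs no data file. -/
def q3 {R : Type*} [CommRing R] (c4 c6 z : R) : R :=
  z ^ 4 - 6 * c4 * z ^ 2 - 8 * c6 * z - 3 * c4 ^ 2

theorem natDegree_q3_le (H T I : ℚ[X]) (hH : H.natDegree ≤ 20) (hT : T.natDegree ≤ 30)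
    (hI : I.natDegree ≤ 10) : (q3 H T I).natDegree ≤ 40 := by
  have h6 : (6 : ℚ[X]) = C 6 := (map_ofNat C 6).symm
  have h8 : (8 : ℚ[X]) = C 8 := (map_ofNat C 8).symm
  have h3 : (3 : ℚ[X]) = C 3 := (map_ofNat C 3).symm
  have e1 : (I ^ 4).natDegree ≤ 40 :=
    (natDegree_pow_le).trans (by omega)
  have e2 : (6 * H * I ^ 2).natDegree ≤ 40 := by
    rw [h6, mul_assoc]
    refine (natDegree_C_mul_le _ _).trans ((natDegree_mul_le).trans ?_)
    have := natDegree_pow_le (p := I) (n := 2)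
    omega
  have e3 : (8 * T * I).natDegree ≤ 40 := by
    rw [h8, mul_assoc]
    refine (natDegree_C_mul_le _ _).trans ((natDegree_mul_le).trans ?_)
    omega
  have e4 : (3 * H ^ 2).natDegree ≤ 40 := by
    rw [h3]
    refine (natDegree_C_mul_le _ _).trans ((natDegree_pow_le).trans ?_)
    omega
  unfold q3
  exact (natDegree_sub_le _ _).trans (max_le ((natDegree_sub_le _ _).trans
    (max_le ((natDegree_sub_le _ _).trans (max_le e1 e2)) e3)) e4)

theorem eval_q3 (H T I : ℚ[X]) (x : ℚ) :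
    (q3 H T I).eval x = q3 (H.eval x) (T.eval x) (I.eval x) := by
  simp [q3]

/-- **HIT-2.** -/
theorem exists_poly_root_on_line (Hm Tm : Polynomial ℚ) (hH : Hm.natDegree ≤ 20)
    (hT : Tm.natDegree ≤ 30)
    (S : Finset (Polynomial ℝ)) (hS : ∀ P ∈ S, P.natDegree ≤ 10)
    (m₀ d : ℤ) (hd : d ≠ 0) (z : ℕ → ℤ)
    (hroot : ∀ i : ℕ, q3 (Hm.eval ((m₀ + d * i : ℤ) : ℚ)) (Tm.eval ((m₀ + d * i : ℤ) : ℚ))
      (z i : ℚ) = 0)
    (hnear : ∀ i : ℕ, ∃ P ∈ S, |(z i : ℝ) - P.eval ((m₀ + d * i : ℤ) : ℝ)| < 1 / 4096) :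
    ∃ (μ₀ μ₁ : ℤ) (I : Polynomial ℚ), μ₁ ≠ 0 ∧
      q3 (Hm.comp (C (μ₀ : ℚ) + C (μ₁ : ℚ) * X)) (Tm.comp (C (μ₀ : ℚ) + C (μ₁ : ℚ) * X)) I = 0 := by
  have hnear' : ∀ i : ℕ, ∃ P ∈ S, |(z i : ℝ) - P.eval ((m₀ : ℝ) + (d : ℝ) * i)| < 1 / 4096 := by
    intro i
    obtain ⟨P, hP, h⟩ := hnear i
    refine ⟨P, hP, ?_⟩
    have hc : (((m₀ + d * i : ℤ)) : ℝ) = (m₀ : ℝ) + (d : ℝ) * i := by push_cast; ring
    rwa [hc] at h
  obtain ⟨a, b, ha, I, hIdeg, hI⟩ := VdwCore.exists_interpolant S hS (m₀ : ℝ) (d : ℝ) z hnear'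
  refine ⟨m₀ + d * b, d * a, I, mul_ne_zero hd (by exact_mod_cast ha.ne'), ?_⟩
  set L : ℚ[X] := C ((m₀ + d * b : ℤ) : ℚ) + C ((d * a : ℤ) : ℚ) * X with hL
  have hLdeg : L.natDegree ≤ 1 := by
    rw [hL, add_comm]
    exact natDegree_linear_le
  have hHL : (Hm.comp L).natDegree ≤ 20 :=
    (natDegree_comp_le).trans ((Nat.mul_le_mul hH hLdeg).trans (by norm_num))
  have hTL : (Tm.comp L).natDegree ≤ 30 :=
    (natDegree_comp_le).trans ((Nat.mul_le_mul hT hLdeg).trans (by norm_num))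
  have hdeg := natDegree_q3_le (Hm.comp L) (Tm.comp L) I hHL hTL hIdeg
  refine eq_zero_of_natDegree_lt_card_of_eval_eq_zero _ (ι := Fin 52)
    (f := fun i : Fin 52 => ((i : ℕ) : ℚ)) ?_ ?_ ?_
  · intro i j hij
    exact Fin.ext (Nat.cast_injective hij)
  · intro i
    have hLev : L.eval ((i : ℕ) : ℚ) = ((m₀ + d * ((a * (i : ℕ) + b : ℕ) : ℤ) : ℤ) : ℚ) := by
      simp only [hL, eval_add, eval_mul, eval_C, eval_X]
      push_cast
      ring
    rw [eval_q3, eval_comp, eval_comp, hLev, ← hI (i : ℕ) i.2]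
    exact hroot (a * (i : ℕ) + b)
  · rw [Fintype.card_fin]
    omega

end Fermat.Agent.S52P.HIT.VdwLine
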