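import Mathlib
import Fermat.Agent.S52P.Klein.Defs
import Fermat.Agent.S52P.Klein.FamMap
import Fermat.Agent.S52P.Klein.FamCong
import Fermat.Agent.S52P.HIT.Asm35
import Fermat.Agent.S52P.HIT.VdwLine
import Fermat.Agent.S52P.HIT.Real
import Fermat.Agent.S52P.HIT.Line51

/-!
# S52 (P) — the interface theorem (HIT) `exists_m`, from the bricks HIT-1, HIT-2, HIT-4
-/

namespace Fermat.Agent.S52P.HIT.ExistsM35

open Polynomial Fermat.Agent.S52P.Klein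

theorem quart3_eq {R : Type*} [CommRing R] (a b z : R) :
    quart3 a b z = z ^ 4 - 6 * a * z ^ 2 - 8 * b * z - 3 * a ^ 2 := by
  unfold quart3; ring

/-- The family polynomial `famH` in the variable `m`. -/
noncomputable def Hm (c₄ c₆ n : ℤ) : ℚ[X] := famH (C (c₄ : ℚ)) (C (c₆ : ℚ)) X (C (n : ℚ))

/-- The family polynomial `famT` in the variable `m`. -/
noncomputable def Tm (c₄ c₆ n : ℤ) : ℚ[X] := famT (C (c₄ : ℚ)) (C (c₆ : ℚ)) X (C (n : ℚ))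

theorem Hm_eval (c₄ c₆ n m : ℤ) : (Hm c₄ c₆ n).eval (m : ℚ) = ((famH c₄ c₆ m n : ℤ) : ℚ) := by
  have h1 := map_famH (evalRingHom (m : ℚ)) (C (c₄ : ℚ)) (C (c₆ : ℚ)) X (C (n : ℚ))
  have h2 := map_famH (Int.castRingHom ℚ) c₄ c₆ m n
  simp only [coe_evalRingHom, eval_C, eval_X] at h1
  simp only [eq_intCast] at h2
  rw [Hm, h1, h2]

theorem Tm_eval (c₄ c₆ n m : ℤ) : (Tm c₄ c₆ n).eval (m : ℚ) = ((famT c₄ c₆ m n : ℤ) : ℚ) := by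
  have h1 := map_famT (evalRingHom (m : ℚ)) (C (c₄ : ℚ)) (C (c₆ : ℚ)) X (C (n : ℚ))
  have h2 := map_famT (Int.castRingHom ℚ) c₄ c₆ m n
  simp only [coe_evalRingHom, eval_C, eval_X] at h1
  simp only [eq_intCast] at h2
  rw [Tm, h1, h2]

theorem Hm_comp (c₄ c₆ n : ℤ) (L : ℚ[X]) :
    (Hm c₄ c₆ n).comp L = famH (C (c₄ : ℚ)) (C (c₆ : ℚ)) L (C (n : ℚ)) := by
  have h1 := map_famH (compRingHom L) (C (c₄ : ℚ)) (C (c₆ : ℚ)) X (C (n : ℚ))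
  simp only [coe_compRingHom_apply, C_comp, X_comp] at h1
  rw [Hm, h1]

theorem Tm_comp (c₄ c₆ n : ℤ) (L : ℚ[X]) :
    (Tm c₄ c₆ n).comp L = famT (C (c₄ : ℚ)) (C (c₆ : ℚ)) L (C (n : ℚ)) := by
  have h1 := map_famT (compRingHom L) (C (c₄ : ℚ)) (C (c₆ : ℚ)) X (C (n : ℚ))
  simp only [coe_compRingHom_apply, C_comp, X_comp] at h1
  rw [Tm, h1]

theorem Hm_natDegree (c₄ c₆ n : ℤ) : (Hm c₄ c₆ n).natDegree ≤ 20 := by
  unfold Hm famH gh0 gh1 gh2 gh3 gh4 gh5 gh6 gh7 gh8 gh9 gh10 gh11 gh12 gh13 gh14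
    gh15 gh16 gh17 gh18 gh19 gh20
  compute_degree

theorem Tm_natDegree (c₄ c₆ n : ℤ) : (Tm c₄ c₆ n).natDegree ≤ 30 := by
  unfold Tm famT gt0 gt1 gt2 gt3 gt4 gt5 gt6 gt7 gt8 gt9 gt10 gt11 gt12 gt13 gt14
    gt15 gt16 gt17 gt18 gt19 gt20 gt21 gt22 gt23 gt24 gt25 gt26 gt27 gt28 gt29 gt30
  compute_degree

/-! ### The HIT-1 brick for the family, from `Real.quart_approx` -/

/-- The family `famH` in the variable `t = 1/m` (over `ℝ`). -/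
noncomputable def Hr (c₄ c₆ n : ℤ) : ℝ[X] := famH (C (c₄ : ℝ)) (C (c₆ : ℝ)) 1 (C (n : ℝ) * X)

/-- The family `famT` in the variable `t = 1/m` (over `ℝ`). -/
noncomputable def Tr (c₄ c₆ n : ℤ) : ℝ[X] := famT (C (c₄ : ℝ)) (C (c₆ : ℝ)) 1 (C (n : ℝ) * X)

theorem Hr_natDegree (c₄ c₆ n : ℤ) : (Hr c₄ c₆ n).natDegree ≤ 20 := by
  unfold Hr famH gh0 gh1 gh2 gh3 gh4 gh5 gh6 gh7 gh8 gh9 gh10 gh11 gh12 gh13 gh14
    gh15 gh16 gh17 gh18 gh19 gh20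
  compute_degree

theorem Tr_natDegree (c₄ c₆ n : ℤ) : (Tr c₄ c₆ n).natDegree ≤ 30 := by
  unfold Tr famT gt0 gt1 gt2 gt3 gt4 gt5 gt6 gt7 gt8 gt9 gt10 gt11 gt12 gt13 gt14
    gt15 gt16 gt17 gt18 gt19 gt20 gt21 gt22 gt23 gt24 gt25 gt26 gt27 gt28 gt29 gt30
  compute_degree

theorem Hr_eval (c₄ c₆ n : ℤ) (t : ℝ) :
    (Hr c₄ c₆ n).eval t = famH (c₄ : ℝ) (c₆ : ℝ) 1 ((n : ℝ) * t) := by
  have h1 := map_famH (evalRingHom t) (C (c₄ : ℝ)) (C (c₆ : ℝ)) 1 (C (n : ℝ) * X)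
  simp only [coe_evalRingHom, eval_C, eval_X, eval_mul, eval_one] at h1
  rw [Hr, h1]

theorem Tr_eval (c₄ c₆ n : ℤ) (t : ℝ) :
    (Tr c₄ c₆ n).eval t = famT (c₄ : ℝ) (c₆ : ℝ) 1 ((n : ℝ) * t) := by
  have h1 := map_famT (evalRingHom t) (C (c₄ : ℝ)) (C (c₆ : ℝ)) 1 (C (n : ℝ) * X)
  simp only [coe_evalRingHom, eval_C, eval_X, eval_mul, eval_one] at h1
  rw [Tr, h1]

theorem reflect_Hr_coeff (c₄ c₆ n : ℤ) : (reflect 20 (Hr c₄ c₆ n)).coeff 20 = (c₄ : ℝ) := by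
  rw [coeff_reflect, revAt_le le_rfl, Nat.sub_self, coeff_zero_eq_eval_zero, Hr_eval, mul_zero,
    famH_zero, one_pow, mul_one]

theorem reflect_Tr_coeff (c₄ c₆ n : ℤ) : (reflect 30 (Tr c₄ c₆ n)).coeff 30 = (c₆ : ℝ) := by
  rw [coeff_reflect, revAt_le le_rfl, Nat.sub_self, coeff_zero_eq_eval_zero, Tr_eval, mul_zero,
    famT_zero, one_pow, mul_one]

theorem reflect_Hr_eval (c₄ c₆ n m : ℤ) (hm : m ≠ 0) :
    (reflect 20 (Hr c₄ c₆ n)).eval (m : ℝ) = ((famH c₄ c₆ m n : ℤ) : ℝ) := by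
  have hm' : (m : ℝ) ≠ 0 := by exact_mod_cast hm
  have h1 := Real.eval_reflect_inv 20 (Hr c₄ c₆ n) (Hr_natDegree c₄ c₆ n) (m : ℝ)⁻¹
    (inv_ne_zero hm')
  rw [inv_inv] at h1
  have h2 := map_famH (Int.castRingHom ℝ) c₄ c₆ m n
  simp only [eq_intCast] at h2
  have h3 := famH_smul (c₄ : ℝ) (c₆ : ℝ) (m : ℝ) 1 ((n : ℝ) * (m : ℝ)⁻¹)
  have h4 : (m : ℝ) * ((n : ℝ) * (m : ℝ)⁻¹) = (n : ℝ) := by field_simp
  rw [mul_one, h4] at h3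
  have h5 : (m : ℝ) ^ 20 * ((m : ℝ)⁻¹) ^ 20 = 1 := by
    rw [← mul_pow, mul_inv_cancel₀ hm', one_pow]
  rw [h2, h3, ← Hr_eval, ← h1]
  linear_combination (-(eval (m : ℝ) (reflect 20 (Hr c₄ c₆ n)))) * h5

theorem reflect_Tr_eval (c₄ c₆ n m : ℤ) (hm : m ≠ 0) :
    (reflect 30 (Tr c₄ c₆ n)).eval (m : ℝ) = ((famT c₄ c₆ m n : ℤ) : ℝ) := by
  have hm' : (m : ℝ) ≠ 0 := by exact_mod_cast hm
  have h1 := Real.eval_reflect_inv 30 (Tr c₄ c₆ n) (Tr_natDegree c₄ c₆ n) (m : ℝ)⁻¹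
    (inv_ne_zero hm')
  rw [inv_inv] at h1
  have h2 := map_famT (Int.castRingHom ℝ) c₄ c₆ m n
  simp only [eq_intCast] at h2
  have h3 := famT_smul (c₄ : ℝ) (c₆ : ℝ) (m : ℝ) 1 ((n : ℝ) * (m : ℝ)⁻¹)
  have h4 : (m : ℝ) * ((n : ℝ) * (m : ℝ)⁻¹) = (n : ℝ) := by field_simp
  rw [mul_one, h4] at h3
  have h5 : (m : ℝ) ^ 30 * ((m : ℝ)⁻¹) ^ 30 = 1 := by
    rw [← mul_pow, mul_inv_cancel₀ hm', one_pow]
  rw [h2, h3, ← Tr_eval, ← h1]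
  linear_combination (-(eval (m : ℝ) (reflect 30 (Tr c₄ c₆ n)))) * h5

/-- **(HIT-1) for the family**: for large integers `m`, every integer root of the quartic
`quart3 (famH c₄ c₆ m n) (famT c₄ c₆ m n)` is within `1/4096` of the value at `m` of one of
finitely many real polynomials of degree at most `10`. -/
theorem exists_real_approx (c₄ c₆ n : ℤ) (h4 : c₄ ≠ 0) (hd : c₄ ^ 3 ≠ c₆ ^ 2) :
    ∃ (M₀ : ℤ) (S : Finset ℝ[X]), (∀ P ∈ S, P.natDegree ≤ 10) ∧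
      ∀ m : ℤ, M₀ ≤ m → ∀ z : ℤ, quart3 (famH c₄ c₆ m n) (famT c₄ c₆ m n) z = 0 →
        ∃ P ∈ S, |(z : ℝ) - P.eval (m : ℝ)| < 1 / 4096 := by
  have hH : (reflect 20 (Hr c₄ c₆ n)).natDegree ≤ 20 :=
    natDegree_reflect_le.trans (max_le le_rfl (Hr_natDegree c₄ c₆ n))
  have hT : (reflect 30 (Tr c₄ c₆ n)).natDegree ≤ 30 :=
    natDegree_reflect_le.trans (max_le le_rfl (Tr_natDegree c₄ c₆ n))
  have h4' : (reflect 20 (Hr c₄ c₆ n)).coeff 20 ≠ 0 := by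
    rw [reflect_Hr_coeff]; exact_mod_cast h4
  have hd' : (reflect 20 (Hr c₄ c₆ n)).coeff 20 ^ 3 ≠ (reflect 30 (Tr c₄ c₆ n)).coeff 30 ^ 2 := by
    rw [reflect_Hr_coeff, reflect_Tr_coeff]; exact_mod_cast hd
  obtain ⟨S, M₀, hS, h⟩ := Real.quart_approx _ _ hH hT h4' hd'
  refine ⟨max ⌈M₀⌉ 1, S, hS, fun m hm z hz => ?_⟩
  have hm1 : (1 : ℤ) ≤ m := (le_max_right _ _).trans hm
  have hm0 : m ≠ 0 := by omega
  have hmM : M₀ ≤ (m : ℝ) := by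
    have h1 : ⌈M₀⌉ ≤ m := (le_max_left _ _).trans hm
    exact (Int.le_ceil M₀).trans (by exact_mod_cast h1)
  refine h (m : ℝ) hmM (z : ℝ) ?_
  rw [reflect_Hr_eval c₄ c₆ n m hm0, reflect_Tr_eval c₄ c₆ n m hm0]
  rw [quart3_eq] at hz
  have hz' := congrArg (Int.cast : ℤ → ℝ) hz
  push_cast at hz' ⊢
  exact hz'

/-! ### The HIT-4 brick: no polynomial root along a line of the family -/

section bridge

variable {R : Type*} [CommRing R]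

theorem eta51 (X Y : R) : Line51.eta X Y = Klein.eta X Y := by
  unfold Line51.eta Klein.eta; ring

theorem theta51 (X Y : R) : Line51.theta X Y = theta X Y := by
  unfold Line51.theta theta; ring

theorem phi51 (X Y : R) : Line51.phi X Y = phi X Y := by
  unfold Line51.phi phi; ring

theorem kA51 (X Y : R) : Line51.kA X Y = kA X Y := by
  unfold Line51.kA kA; ring

theorem kB51 (X Y : R) : Line51.kB X Y = kB X Y := by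
  unfold Line51.kB kB; ring

theorem quart51 (a b z : R) : Line51.quart3 a b z = quart3 a b z := by
  unfold Line51.quart3 quart3; ring

theorem eta_C (a b : R) : Klein.eta (C a) (C b) = C (Klein.eta a b) :=
  (map_eta C a b).symm

theorem theta_C (a b : R) : theta (C a) (C b) = C (theta a b) :=
  (map_theta C a b).symm

end bridge

/-- **(HIT-4)**, with the two line identities (`famH_eq`, `famT_eq` at `R = k[X]`) and the base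
point `(x₀, y₀)` as hypotheses: along `m = μ₀ + μ₁ X` the 3-division quartic of the family has no
root in `ℚ[X]`. -/
theorem no_interpolant_of {k : Type*} [Field k] [CharZero k] [IsAlgClosed k]
    (c₄ c₆ n μ₀ μ₁ : ℤ) (hd : c₄ ^ 3 ≠ c₆ ^ 2) (hn : n ≠ 0) (hμ : μ₁ ≠ 0)
    (x₀ y₀ : k) (hx : Klein.eta (x₀ ^ 5) (y₀ ^ 5) = (c₄ : k)) (hy : theta (x₀ ^ 5) (y₀ ^ 5) = (c₆ : k))
    (hHeq : Klein.eta
        (C (x₀ ^ 5) * ((C (μ₀ : k) + C (μ₁ : k) * X) + C (n : k) * kA (C (x₀ ^ 5)) (C (y₀ ^ 5))) ^ 5)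
        (C (y₀ ^ 5) * ((C (μ₀ : k) + C (μ₁ : k) * X) - C (n : k) * kB (C (x₀ ^ 5)) (C (y₀ ^ 5))) ^ 5)
      = famH (Klein.eta (C (x₀ ^ 5)) (C (y₀ ^ 5))) (theta (C (x₀ ^ 5)) (C (y₀ ^ 5)))
          (C (μ₀ : k) + C (μ₁ : k) * X) (C (n : k)))
    (hTeq : theta
        (C (x₀ ^ 5) * ((C (μ₀ : k) + C (μ₁ : k) * X) + C (n : k) * kA (C (x₀ ^ 5)) (C (y₀ ^ 5))) ^ 5)
        (C (y₀ ^ 5) * ((C (μ₀ : k) + C (μ₁ : k) * X) - C (n : k) * kB (C (x₀ ^ 5)) (C (y₀ ^ 5))) ^ 5)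
      = famT (Klein.eta (C (x₀ ^ 5)) (C (y₀ ^ 5))) (theta (C (x₀ ^ 5)) (C (y₀ ^ 5)))
          (C (μ₀ : k) + C (μ₁ : k) * X) (C (n : k)))
    (I : ℚ[X]) :
    quart3 (famH (C (c₄ : ℚ)) (C (c₆ : ℚ)) (C (μ₀ : ℚ) + C (μ₁ : ℚ) * X) (C (n : ℚ)))
      (famT (C (c₄ : ℚ)) (C (c₆ : ℚ)) (C (μ₀ : ℚ) + C (μ₁ : ℚ) * X) (C (n : ℚ))) I ≠ 0 := by
  intro hI
  have hI' := congrArg (mapRingHom (algebraMap ℚ k)) hI
  rw [map_quart3, map_famH, map_famT, map_zero] at hI'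
  simp only [coe_mapRingHom, Polynomial.map_add, Polynomial.map_mul, Polynomial.map_C,
    Polynomial.map_X, eq_ratCast, Rat.cast_intCast] at hI'
  have hf : x₀ * y₀ * Line51.phi (x₀ ^ 5) (y₀ ^ 5) ≠ 0 := by
    apply Line51.f_ne_zero_of_disc
    rw [eta51, theta51, hx, hy]
    exact_mod_cast hd
  have h := Line51.no_root_fam x₀ y₀ (μ₀ : k) (μ₁ : k) (n : k) hf (by exact_mod_cast hn)
    (by exact_mod_cast hμ) (I.map (algebraMap ℚ k))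
  apply h
  rw [quart51, eta51, theta51, kA51, kB51, hHeq, hTeq, eta_C, theta_C, hx, hy]
  exact hI'

/-- **(HIT) from its bricks.** `hReal` is the literal of the concrete HIT-1 brick, `hLine` the
literal of the HIT-4 brick (`no_interpolant`); HIT-2 is cited (`VdwLine.exists_poly_root_on_line`). -/
theorem exists_m_of_bricks (c₄ c₆ : ℤ) (n : ℤ) (hn : n ≠ 0)
    (hReal : ∃ (M₀ : ℤ) (S : Finset ℝ[X]), (∀ P ∈ S, P.natDegree ≤ 10) ∧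
      ∀ m : ℤ, M₀ ≤ m → ∀ z : ℤ, quart3 (famH c₄ c₆ m n) (famT c₄ c₆ m n) z = 0 →
        ∃ P ∈ S, |(z : ℝ) - P.eval (m : ℝ)| < 1 / 4096)
    (hLine : ∀ (μ₀ μ₁ : ℤ), μ₁ ≠ 0 → ∀ I : ℚ[X],
      quart3 (famH (C (c₄ : ℚ)) (C (c₆ : ℚ)) (C (μ₀ : ℚ) + C (μ₁ : ℚ) * X) (C (n : ℚ)))
        (famT (C (c₄ : ℚ)) (C (c₆ : ℚ)) (C (μ₀ : ℚ) + C (μ₁ : ℚ) * X) (C (n : ℚ))) I ≠ 0) :
    ∃ m : ℤ, m ≡ 1 [ZMOD n] ∧ ∀ z : ℤ, quart3 (famH c₄ c₆ m n) (famT c₄ c₆ m n) z ≠ 0 := by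
  have key := Asm35.exists_m_of_line (Hm c₄ c₆ n) (Tm c₄ c₆ n)
    (fun m => famH c₄ c₆ m n) (fun m => famT c₄ c₆ m n)
    (Hm_eval c₄ c₆ n) (Tm_eval c₄ c₆ n) n hn
    (by simpa only [quart3_eq] using hReal)
    (fun S hS m₀ d hd z hroot hnear =>
      VdwLine.exists_poly_root_on_line (Hm c₄ c₆ n) (Tm c₄ c₆ n) (Hm_natDegree c₄ c₆ n)
        (Tm_natDegree c₄ c₆ n) S hS m₀ d hd z hroot hnear)
    (fun μ₀ μ₁ hμ I => by
      have h := hLine μ₀ μ₁ hμ I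
      rw [quart3_eq, ← Hm_comp, ← Tm_comp] at h
      exact h)
  simpa only [quart3_eq] using key

end Fermat.Agent.S52P.HIT.ExistsM35
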