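import Mathlib
import Fermat.Agent.S52P.Klein.Defs
import Fermat.Agent.S52P.Klein.FamH
import Fermat.Agent.S52P.Klein.FamT
import Fermat.Agent.S52P.Base49
import Fermat.Agent.S52P.HIT.ExistsM35

/-!
# S52 (P) — the interface theorem (HIT): `exists_m`

For `c₄ c₆ ≠ 0`, `c₄³ ≠ c₆²` and `n ≠ 0` there is `m ≡ 1 [ZMOD n]` such that the 3-division
quartic `quart3 (famH c₄ c₆ m n) (famT c₄ c₆ m n)` of the member `(m, n)` of the Klein family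
has no integer root.

Assembly: HIT-1 (`Real.quart_approx`, helper7) through `ExistsM35.exists_real_approx`;
HIT-2 (`VdwLine.exists_poly_root_on_line`, helper1); HIT-3/4 (`Line51.no_root_fam`, helper51)
through `ExistsM35.no_interpolant_of` with `Klein.famH_eq`, `Klein.famT_eq` (helper23) and the
base point `Base49.exists_base_explicit` (helper49).
-/

namespace Fermat.Agent.S52P.HIT.HitTop35

open Polynomial Fermat.Agent.S52P.Klein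

/-- **(HIT-4)** `no_interpolant`: along `m = μ₀ + μ₁ X` (`μ₁ ≠ 0`) the 3-division quartic of the
family has no root in `ℚ[X]`. -/
theorem no_interpolant (c₄ c₆ : ℤ) (h4 : c₄ ≠ 0) (h6 : c₆ ≠ 0) (hd : c₄ ^ 3 ≠ c₆ ^ 2)
    (n μ₀ μ₁ : ℤ) (hn : n ≠ 0) (hμ : μ₁ ≠ 0) (I : ℚ[X]) :
    quart3 (famH (C (c₄ : ℚ)) (C (c₆ : ℚ)) (C (μ₀ : ℚ) + C (μ₁ : ℚ) * X) (C (n : ℚ)))
      (famT (C (c₄ : ℚ)) (C (c₆ : ℚ)) (C (μ₀ : ℚ) + C (μ₁ : ℚ) * X) (C (n : ℚ))) I ≠ 0 := by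
  obtain ⟨x₀, y₀, hx, hy⟩ := Base49.exists_base_explicit (K := AlgebraicClosure ℚ)
    (c₄ : AlgebraicClosure ℚ) (c₆ : AlgebraicClosure ℚ) (by exact_mod_cast h4)
    (by exact_mod_cast h6) (by exact_mod_cast hd)
  exact ExistsM35.no_interpolant_of c₄ c₆ n μ₀ μ₁ hd hn hμ x₀ y₀
    (by unfold Klein.eta; exact hx) (by unfold theta; exact hy)
    (famH_eq _ _ _ _) (famT_eq _ _ _ _) I

/-- **(HIT)**, the literal of the design (#4468 §2). -/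
theorem exists_m (c₄ c₆ : ℤ) (h4 : c₄ ≠ 0) (h6 : c₆ ≠ 0) (hd : c₄ ^ 3 ≠ c₆ ^ 2) (n : ℤ)
    (hn : n ≠ 0) :
    ∃ m : ℤ, m ≡ 1 [ZMOD n] ∧ ∀ z : ℤ, quart3 (famH c₄ c₆ m n) (famT c₄ c₆ m n) z ≠ 0 :=
  ExistsM35.exists_m_of_bricks c₄ c₆ n hn (ExistsM35.exists_real_approx c₄ c₆ n h4 hd)
    (fun μ₀ μ₁ hμ I => no_interpolant c₄ c₆ h4 h6 hd n μ₀ μ₁ hn hμ I)

end Fermat.Agent.S52P.HIT.HitTop35
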