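import Mathlib
import Fermat.Agent.S52P.Seam
import Fermat.Agent.S52P.HIT.HitTop35

/-!
# S52 (P) — the interface `HIT` of `Seam.lean`, as a term
-/

namespace Fermat.Agent.S52P.HIT.HitSeam35

/-- The interface statement `Fermat.Agent.S52P.HIT` of the top seam. -/
theorem hit : Fermat.Agent.S52P.HIT :=
  fun c₄ c₆ h4 h6 hd n hn => HitTop35.exists_m c₄ c₆ h4 h6 hd n hn

end Fermat.Agent.S52P.HIT.HitSeam35
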